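import Mathlib
import Fermat.Prelude.Def_ModularCurve_PeriodHomPair

/-!
# The lattice of characters `Period.H`

Definition of `H N R A`: the additive homomorphisms `Γ₀(N) → A` killing every element of squared
trace `4` (parabolics and `±1`) and every element of finite order, as an `R`-submodule. It plays
the role of the first cohomology of the compact modular curve `X₀(N)` with coefficients in `A`.
-/

set_option autoImplicit false

open CongruenceSubgroup

namespace FLTAgent.Period

/-- Homomorphisms `Γ₀(N) → A` killing all parabolic and all finite-order elements. -/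
def H (N : ℕ) (R A : Type*) [Semiring R] [AddCommGroup A] [Module R A] :
    Submodule R (Additive (Gamma0 N) →+ A) where
  carrier := {φ | φ ∈ ModularCurve.Period.parabolicHoms R (Gamma0 N) A ∧
    ∀ γ : Gamma0 N, IsOfFinOrder γ → φ (Additive.ofMul γ) = 0}
  zero_mem' := ⟨zero_mem _, fun _ _ => rfl⟩
  add_mem' := fun {φ ψ} hφ hψ => ⟨add_mem hφ.1 hψ.1, fun γ hγ => by
    show φ (Additive.ofMul γ) + ψ (Additive.ofMul γ) = 0
    rw [hφ.2 γ hγ, hψ.2 γ hγ, add_zero]⟩
  smul_mem' := fun r φ hφ => ⟨Submodule.smul_mem _ r hφ.1, fun γ hγ => by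
    show r • φ (Additive.ofMul γ) = 0
    rw [hφ.2 γ hγ, smul_zero]⟩

end FLTAgent.Period
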