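import Mathlib

/-!
# Group theory of `SL(2, ℤ)`

* `exists_hom_SL2_of_relations`: `PSL(2, ℤ) = C₂ * C₃`, so an involution and an element killed by
  three define a homomorphism on `SL(2, ℤ)` (ping-pong on the upper half plane);
* `exists_conj_T_zpow_of_trace`: elements of trace `±2` are conjugate to `±Tⁿ`;
* `exists_conj_of_isOfFinOrder`: elements of finite order are conjugate to `±1, ±S, ±U, ±U²`,
  `U = genU = T S`;
* `closure_gamma0_union_parabolic`: for `N ∣ M`, `Γ₀(N)` is generated by `Γ₀(M)` and parabolics.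
-/

set_option autoImplicit false

open CongruenceSubgroup Matrix.SpecialLinearGroup
open scoped MatrixGroups Pointwise Function

namespace FLTAgent.Period

/-- `T * S`, of order six in `SL(2, ℤ)`. -/
def genU : SL(2, ℤ) := ModularGroup.T * ModularGroup.S

theorem coe_genU : (genU : Matrix (Fin 2) (Fin 2) ℤ) = !![1, -1; 1, 0] := by
  rw [genU, coe_mul, ModularGroup.coe_T, ModularGroup.coe_S, Matrix.mul_fin_two]
  norm_num

theorem S_sq : ModularGroup.S ^ 2 = (-1 : SL(2, ℤ)) := by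
  apply Subtype.ext
  rw [coe_pow, ModularGroup.coe_S, coe_neg, coe_one, sq, Matrix.mul_fin_two, Matrix.one_fin_two]
  norm_num

theorem genU_pow_three : genU ^ 3 = (-1 : SL(2, ℤ)) := by
  apply Subtype.ext
  rw [coe_pow, coe_genU, coe_neg, coe_one, pow_succ, pow_two, Matrix.mul_fin_two,
    Matrix.mul_fin_two, Matrix.one_fin_two]
  norm_num

theorem neg_one_smul_upperHalfPlane (z : UpperHalfPlane) : (-1 : SL(2, ℤ)) • z = z := by
  rw [ModularGroup.SL_neg_smul, one_smul]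

section PingPong

open UpperHalfPlane

private abbrev C23 (i : Bool) : Type := Multiplicative (ZMod (cond i 3 2))

private def cyclicHom {G : Type*} [Group G] (n : ℕ) (a : G) (ha : a ^ n = 1) :
    Multiplicative (ZMod n) →* G :=
  AddMonoidHom.toMultiplicativeLeft (ZMod.lift n ⟨zmultiplesHom (Additive G) (Additive.ofMul a),
    by simp [← ofMul_pow, ha]⟩)

private theorem cyclicHom_natCast {G : Type*} [Group G] (n : ℕ) (a : G) (ha : a ^ n = 1) (k : ℕ) :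
    cyclicHom n a ha (Multiplicative.ofAdd (k : ZMod n)) = a ^ k := by
  show Additive.toMul (α := G) (ZMod.lift n ⟨zmultiplesHom (Additive G) (Additive.ofMul a), by
    simp [← ofMul_pow, ha]⟩ (k : ZMod n)) = _
  rw [show ((k : ZMod n)) = (((k : ℤ)) : ZMod n) from (Int.cast_natCast k).symm, ZMod.lift_coe]
  simp

private theorem cyclicHom_one {G : Type*} [Group G] (n : ℕ) (a : G) (ha : a ^ n = 1) :
    cyclicHom n a ha (Multiplicative.ofAdd 1) = a := by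
  simpa using cyclicHom_natCast n a ha 1

private theorem eq_natCast_of_ne_one {n : ℕ} [NeZero n] (h : Multiplicative (ZMod n)) (hh : h ≠ 1) :
    ∃ k : ℕ, 0 < k ∧ k < n ∧ h = Multiplicative.ofAdd (k : ZMod n) := by
  refine ⟨h.toAdd.val, ?_, ZMod.val_lt _, ?_⟩
  · rw [Nat.pos_iff_ne_zero, Ne, ZMod.val_eq_zero]
    exact fun h0 => hh (by rw [← ofAdd_toAdd h, h0, ofAdd_zero])
  · rw [ZMod.natCast_zmod_val, ofAdd_toAdd]

private noncomputable def permH : SL(2, ℤ) →* Equiv.Perm ℍ := MulAction.toPermHom SL(2, ℤ) ℍ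

private theorem permH_neg_one : permH (-1) = 1 :=
  Equiv.ext fun z => neg_one_smul_upperHalfPlane z

private noncomputable def ppHom (i : Bool) : C23 i →* Equiv.Perm ℍ :=
  match i with
  | false => cyclicHom 2 (permH ModularGroup.S) (by rw [← map_pow, S_sq, permH_neg_one])
  | true => cyclicHom 3 (permH genU) (by rw [← map_pow, genU_pow_three, permH_neg_one])

private theorem coe_S_smul (z : ℍ) : ((ModularGroup.S • z : ℍ) : ℂ) = -1 / (z : ℂ) := by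
  rw [modular_S_smul]
  show (-(z : ℂ))⁻¹ = _
  rw [neg_div, one_div, inv_neg]

private theorem re_neg_one_div {w : ℂ} (hw : w.re < 0) : 0 < (-1 / w).re := by
  have hw0 : w ≠ 0 := fun h => by simp [h] at hw
  rw [Complex.div_re]
  simp only [Complex.neg_re, Complex.one_re, Complex.neg_im, Complex.one_im]
  have := Complex.normSq_pos.mpr hw0
  have : 0 < -w.re / Complex.normSq w := div_pos (by linarith) this
  simpa using this

private theorem lift_ppHom_injective : Function.Injective (Monoid.CoprodI.lift ppHom) := by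
  let X : Bool → Set ℍ := fun i => cond i {z | 0 < z.re} {z | z.re < 0}
  refine Monoid.CoprodI.lift_injective_of_ping_pong ppHom (Or.inr ⟨true, ?_⟩) X ?_ ?_ ?_
  · rw [show Cardinal.mk (C23 true) = (3 : ℕ) from ?_]
    · norm_num
    · show Cardinal.mk (ZMod 3) = _
      rw [Cardinal.mk_fintype, ZMod.card]
  · rintro (_ | _)
    · exact ⟨(-1 : ℝ) +ᵥ UpperHalfPlane.I, show ((-1 : ℝ) +ᵥ UpperHalfPlane.I).re < 0 by simp⟩
    · exact ⟨(1 : ℝ) +ᵥ UpperHalfPlane.I, show 0 < ((1 : ℝ) +ᵥ UpperHalfPlane.I).re by simp⟩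
  · rintro (_ | _) (_ | _) hij
    · exact absurd rfl hij
    · exact Set.disjoint_left.mpr fun z (h₁ : z.re < 0) (h₂ : 0 < z.re) => by linarith
    · exact Set.disjoint_left.mpr fun z (h₁ : 0 < z.re) (h₂ : z.re < 0) => by linarith
    · exact absurd rfl hij
  · intro i j hij h hh
    rintro _ ⟨z, hz, rfl⟩
    match i, j, hij, h, hh, hz with
    | false, false, hij, _, _, _ => exact absurd rfl hij
    | true, true, hij, _, _, _ => exact absurd rfl hij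
    | false, true, _, h, hh, (hz : 0 < z.re) =>
      obtain ⟨k, hk0, hk2, rfl⟩ := eq_natCast_of_ne_one (n := 2) h hh
      obtain rfl : k = 1 := by omega
      show ((ppHom false) _ • z : ℍ).re < 0
      simp only [ppHom, cyclicHom_natCast, pow_one]
      show ((ModularGroup.S • z : ℍ) : ℂ).re < 0
      rw [coe_S_smul, neg_div, Complex.neg_re, one_div, Complex.inv_re]
      have : 0 < z.re / Complex.normSq (z : ℂ) := div_pos hz (Complex.normSq_pos.mpr z.ne_zero)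
      simpa using this
    | true, false, _, h, hh, (hz : z.re < 0) =>
      obtain ⟨k, hk0, hk3, rfl⟩ := eq_natCast_of_ne_one (n := 3) h hh
      show 0 < ((ppHom true) _ • z : ℍ).re
      simp only [ppHom, cyclicHom_natCast, ← map_pow]
      show 0 < ((genU ^ k • z : ℍ) : ℂ).re
      have h1 : ∀ w : ℍ, ((genU • w : ℍ) : ℂ) = 1 + -1 / (w : ℂ) := fun w => by
        rw [genU, mul_smul, modular_T_smul, coe_vadd, coe_S_smul]
        push_cast; ring
      have hk : k = 1 ∨ k = 2 := by omega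
      rcases hk with rfl | rfl
      · rw [pow_one, h1, Complex.add_re, Complex.one_re]
        linarith [re_neg_one_div (w := (z : ℂ)) hz]
      · rw [pow_two, mul_smul, h1, h1]
        have hz0 : (z : ℂ) ≠ 0 := z.ne_zero
        have hz1 : (z : ℂ) - 1 ≠ 0 := fun h0 => z.im_ne_zero (by
          simpa using congrArg Complex.im h0)
        have : 1 + -1 / (1 + -1 / (z : ℂ)) = -1 / ((z : ℂ) - 1) := by
          have h2 : (1 : ℂ) + -1 / (z : ℂ) = ((z : ℂ) - 1) / z := by field_simp; ring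
          rw [h2, div_div_eq_mul_div, one_add_div hz1]
          ring
        rw [this]
        exact re_neg_one_div (by
          have : (z : ℂ).re = z.re := rfl
          simp; linarith)

/-- `PSL(2, ℤ) = C₂ * C₃`: an involution and an element of order dividing three extend
to a homomorphism on `SL(2, ℤ)`. -/
theorem exists_hom_SL2_of_relations {P : Type*} [Group P] (s u : P) (hs : s ^ 2 = 1)
    (hu : u ^ 3 = 1) :
    ∃ f : SL(2, ℤ) →* P, f ModularGroup.S = s ∧ f genU = u ∧ f (-1) = 1 := by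
  let L := Monoid.CoprodI.lift ppHom
  let e : Monoid.CoprodI C23 ≃* L.range := MonoidHom.ofInjective lift_ppHom_injective
  have hS : permH ModularGroup.S = L (Monoid.CoprodI.of (i := false) (Multiplicative.ofAdd 1)) := by
    simp only [L, Monoid.CoprodI.lift_of, ppHom, cyclicHom_one]
  have hU : permH genU = L (Monoid.CoprodI.of (i := true) (Multiplicative.ofAdd 1)) := by
    simp only [L, Monoid.CoprodI.lift_of, ppHom, cyclicHom_one]
  have hmem : ∀ g, permH g ∈ L.range := by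
    intro g
    suffices (⊤ : Subgroup SL(2, ℤ)) ≤ L.range.comap permH from this (Subgroup.mem_top g)
    rw [← SpecialLinearGroup.SL2Z_generators, Subgroup.closure_le]
    rintro x (rfl | rfl) <;> simp only [SetLike.mem_coe, Subgroup.mem_comap]
    · exact ⟨_, hS.symm⟩
    · rw [show ModularGroup.T = genU * ModularGroup.S⁻¹ by rw [genU, mul_inv_cancel_right], map_mul,
        map_inv]
      exact mul_mem ⟨_, hU.symm⟩ (inv_mem ⟨_, hS.symm⟩)
  let π : SL(2, ℤ) →* L.range := permH.codRestrict _ hmem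
  let φ : Monoid.CoprodI C23 →* P := Monoid.CoprodI.lift fun i =>
    match i with
    | false => cyclicHom 2 s hs
    | true => cyclicHom 3 u hu
  have key : ∀ g x, permH g = L x → φ (e.symm (π g)) = φ x := fun g x hx => by
    congr 1
    rw [MulEquiv.symm_apply_eq]
    exact Subtype.ext hx
  refine ⟨φ.comp ((e.symm : L.range →* Monoid.CoprodI C23).comp π), ?_, ?_, ?_⟩
  · refine (key _ _ hS).trans ?_
    simp only [φ, Monoid.CoprodI.lift_of, cyclicHom_one]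
  · refine (key _ _ hU).trans ?_
    simp only [φ, Monoid.CoprodI.lift_of, cyclicHom_one]
  · refine (key _ 1 (by rw [map_one, permH_neg_one])).trans (map_one φ)

end PingPong

section Trace

variable (γ : SL(2, ℤ))

theorem trace_eq : (γ : Matrix (Fin 2) (Fin 2) ℤ).trace = γ 0 0 + γ 1 1 :=
  Matrix.trace_fin_two _

theorem det_eq : γ 0 0 * γ 1 1 - γ 0 1 * γ 1 0 = 1 := by
  rw [← Matrix.det_fin_two, det_coe]

variable {γ}

theorem eq_T_zpow_of_trace_two (h : (γ : Matrix (Fin 2) (Fin 2) ℤ).trace = 2) (hc : γ 1 0 = 0) :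
    γ = ModularGroup.T ^ (γ 0 1) := by
  rw [trace_eq] at h
  have hd := det_eq γ
  rw [hc] at hd
  have hd1 : γ 1 1 = 2 - γ 0 0 := by linarith
  have ha : γ 0 0 = 1 := by
    rw [hd1] at hd; nlinarith [sq_nonneg (γ 0 0 - 1)]
  apply Subtype.ext
  rw [ModularGroup.coe_T_zpow]
  ext i j
  fin_cases i <;> fin_cases j <;> simp [ha, hc, hd1]

theorem trace_conj (δ : SL(2, ℤ)) :
    ((δ * γ * δ⁻¹ : SL(2, ℤ)) : Matrix (Fin 2) (Fin 2) ℤ).trace =
      (γ : Matrix (Fin 2) (Fin 2) ℤ).trace := by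
  rw [coe_mul, coe_mul, Matrix.trace_mul_cycle, ← coe_mul, inv_mul_cancel, coe_one, one_mul]

theorem trace_neg' : ((-γ : SL(2, ℤ)) : Matrix (Fin 2) (Fin 2) ℤ).trace =
    -(γ : Matrix (Fin 2) (Fin 2) ℤ).trace := by
  rw [coe_neg, Matrix.trace_neg]

theorem exists_conj_T_zpow_of_trace_two (h : (γ : Matrix (Fin 2) (Fin 2) ℤ).trace = 2) :
    ∃ (δ : SL(2, ℤ)) (n : ℤ), γ = δ * ModularGroup.T ^ n * δ⁻¹ := by
  by_cases hc : γ 1 0 = 0
  · exact ⟨1, γ 0 1, by rw [one_mul, inv_one, mul_one]; exact eq_T_zpow_of_trace_two h hc⟩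
  obtain ⟨x, y, hxy⟩ : ∃ x y : ℤ, IsCoprime x y ∧
      γ 0 0 * x + γ 0 1 * y = x ∧ γ 1 0 * x + γ 1 1 * y = y := by
    obtain ⟨x, y, hco, hx, hy⟩ := exists_coprime_multiples (γ 0 0 - 1) (γ 1 0) (Or.inr hc)
    obtain ⟨g, hg, hgx, hgy⟩ := hx
    have hd := det_eq γ
    rw [trace_eq] at h
    refine ⟨x, y, hco, mul_left_cancel₀ hg ?_, mul_left_cancel₀ hg ?_⟩
    · linear_combination (γ 0 0 - 1) * (-hgx) + γ 0 1 * (-hgy) + γ 0 0 * h - hd + hy
    · linear_combination γ 1 0 * (-hgx) + (γ 1 1 - 1) * (-hgy) + γ 1 0 * h + hy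
  obtain ⟨hco, h0, h1⟩ := hxy
  obtain ⟨δ, hδ0, hδ1⟩ := hco.exists_SL2_col 0
  refine ⟨δ, (δ⁻¹ * γ * δ : SL(2, ℤ)) 0 1, ?_⟩
  have htr : ((δ⁻¹ * γ * δ : SL(2, ℤ)) : Matrix (Fin 2) (Fin 2) ℤ).trace = 2 := by
    simpa using (trace_conj (γ := γ) δ⁻¹).trans h
  have hcol : (δ⁻¹ * γ * δ : SL(2, ℤ)) 1 0 = 0 := by
    have e : ((δ⁻¹ * δ : SL(2, ℤ)) : Matrix (Fin 2) (Fin 2) ℤ) 1 0 = 0 := by
      rw [inv_mul_cancel]; rfl
    rw [← e]
    rw [coe_mul, coe_mul, coe_mul, Matrix.mul_assoc]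
    simp only [Matrix.mul_apply, Fin.sum_univ_two, hδ0, hδ1]
    rw [h0, h1]
  rw [← eq_T_zpow_of_trace_two htr hcol]
  group
where
  exists_coprime_multiples (a c : ℤ) (h : a ≠ 0 ∨ c ≠ 0) :
      ∃ x y : ℤ, IsCoprime x y ∧ (∃ g : ℤ, g ≠ 0 ∧ a = g * x ∧ c = g * y) ∧ (0 : ℤ) = 0 := by
    have hg : Int.gcd a c ≠ 0 := by
      rw [Ne, Int.gcd_eq_zero_iff]; rintro ⟨rfl, rfl⟩; simp at h
    obtain ⟨x, hx⟩ := Int.gcd_dvd_left a c
    obtain ⟨y, hy⟩ := Int.gcd_dvd_right a c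
    refine ⟨x, y, ⟨Int.gcdA a c, Int.gcdB a c, ?_⟩, ⟨_, by exact_mod_cast hg, hx, hy⟩, rfl⟩
    apply mul_left_cancel₀ (show (Int.gcd a c : ℤ) ≠ 0 by exact_mod_cast hg)
    have := Int.gcd_eq_gcd_ab a c
    linear_combination -this - Int.gcdA a c * hx - Int.gcdB a c * hy

/-- Elements of trace `±2` are conjugate to `±Tⁿ`. -/
theorem exists_conj_T_zpow_of_trace
    (h : (γ : Matrix (Fin 2) (Fin 2) ℤ).trace ^ 2 = 4) :
    ∃ (δ : SL(2, ℤ)) (n : ℤ),
      γ = δ * ModularGroup.T ^ n * δ⁻¹ ∨ γ = -(δ * ModularGroup.T ^ n * δ⁻¹) := by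
  rcases sq_eq_sq_iff_eq_or_eq_neg.mp (h.trans (show (4 : ℤ) = 2 ^ 2 by norm_num)) with h2 | h2
  · obtain ⟨δ, n, e⟩ := exists_conj_T_zpow_of_trace_two h2
    exact ⟨δ, n, Or.inl e⟩
  · obtain ⟨δ, n, e⟩ := exists_conj_T_zpow_of_trace_two (γ := -γ) (by rw [trace_neg', h2, neg_neg])
    exact ⟨δ, n, Or.inr (by rw [← e, neg_neg])⟩

theorem abs_trace_le_two_of_isOfFinOrder (h : IsOfFinOrder γ) :
    |(γ : Matrix (Fin 2) (Fin 2) ℤ).trace| ≤ 2 := by
  obtain ⟨m, hm, hγm⟩ := isOfFinOrder_iff_pow_eq_one.mp h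
  by_contra hlt
  push Not at hlt
  obtain ⟨a, ha⟩ : ∃ a : ℝ, a = (γ 0 0 : ℤ) := ⟨_, rfl⟩
  obtain ⟨b, hb0⟩ : ∃ a : ℝ, a = (γ 0 1 : ℤ) := ⟨_, rfl⟩
  obtain ⟨c, hc0⟩ : ∃ a : ℝ, a = (γ 1 0 : ℤ) := ⟨_, rfl⟩
  obtain ⟨d, hd0⟩ : ∃ a : ℝ, a = (γ 1 1 : ℤ) := ⟨_, rfl⟩
  have hdet : a * d - b * c = 1 := by
    rw [ha, hb0, hc0, hd0]; exact_mod_cast det_eq γ
  have ht : 2 < |a + d| := by
    rw [trace_eq] at hlt
    rw [ha, hd0]; exact_mod_cast hlt
  have hb : b ≠ 0 := by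
    intro hb
    have hb' : γ 0 1 = 0 := by rw [hb0] at hb; exact_mod_cast hb
    have hd := det_eq γ
    rw [hb', zero_mul, sub_zero] at hd
    rw [trace_eq] at hlt
    rcases Int.eq_one_or_neg_one_of_mul_eq_one' hd with ⟨h1, h2⟩ | ⟨h1, h2⟩ <;>
      rw [h1, h2] at hlt <;> norm_num at hlt
  have hdisc : 0 ≤ (a + d) ^ 2 - 4 := by nlinarith [sq_abs (a + d)]
  set r : ℝ := (a + d + Real.sqrt ((a + d) ^ 2 - 4)) / 2 with hr
  have hr2 : r ^ 2 - (a + d) * r + 1 = 0 := by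
    have := Real.sq_sqrt hdisc
    rw [hr]; ring_nf; ring_nf at this; linarith
  have key : ∀ k : ℕ, ((γ ^ k : SL(2, ℤ)) 0 0 : ℝ) * b + ((γ ^ k : SL(2, ℤ)) 0 1 : ℝ) * (r - a) =
      r ^ k * b := by
    intro k
    induction k with
    | zero => simp
    | succ k ih =>
      rw [pow_succ, coe_mul, pow_succ]
      simp only [Matrix.mul_apply, Fin.sum_univ_two]
      push_cast
      rw [← ha, ← hb0, ← hc0, ← hd0]
      linear_combination r * ih - ((γ ^ k : SL(2, ℤ)) 0 1 : ℝ) * hr2 -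
        ((γ ^ k : SL(2, ℤ)) 0 1 : ℝ) * hdet
  have h1 := key m
  rw [hγm] at h1
  have hrm : r ^ m = 1 := by
    refine mul_right_cancel₀ hb ?_
    rw [← h1]; simp
  rcases eq_or_ne r 1 with e | e
  · rw [e] at hr2
    rw [show a + d = 2 by linarith] at ht
    norm_num at ht
  · rcases (pow_eq_one_iff_cases).mp hrm with h | h | ⟨h, -⟩
    · omega
    · exact e h
    · rw [h] at hr2
      rw [show a + d = -2 by linarith] at ht
      norm_num at ht

private theorem exists_sub_le (x c : ℤ) (hc : c ≠ 0) : ∃ k : ℤ, |x + 2 * c * k| ≤ |c| := by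
  have hc' : 0 < |c| := abs_pos.mpr hc
  have h1 := Int.emod_nonneg (x + |c|) (show 2 * |c| ≠ 0 by omega)
  have h2 := Int.emod_lt_of_pos (x + |c|) (show 0 < 2 * |c| by omega)
  have h3 := Int.emod_add_ediv_mul (x + |c|) (2 * |c|)
  rcases abs_choice c with e | e
  · refine ⟨-((x + |c|) / (2 * |c|)), abs_le.mpr ⟨?_, ?_⟩⟩ <;>
      (rw [e] at h1 h2 h3 hc' ⊢; nlinarith)
  · refine ⟨(x + |c|) / (2 * |c|), abs_le.mpr ⟨?_, ?_⟩⟩ <;>
      (rw [e] at h1 h2 h3 hc' ⊢; nlinarith)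

theorem conj_T_zpow_apply (k : ℤ) :
    ((ModularGroup.T ^ k * γ * (ModularGroup.T ^ k)⁻¹ : SL(2, ℤ)) 0 0 = γ 0 0 + k * γ 1 0) ∧
    ((ModularGroup.T ^ k * γ * (ModularGroup.T ^ k)⁻¹ : SL(2, ℤ)) 1 0 = γ 1 0) := by
  rw [← zpow_neg]
  simp [coe_mul, ModularGroup.coe_T_zpow, Matrix.mul_apply, Matrix.vecMul, dotProduct, Fin.sum_univ_two]

private theorem exists_conj_of_small (m : ℕ) :
    ∀ γ : SL(2, ℤ), (γ 1 0).natAbs = m → |(γ : Matrix (Fin 2) (Fin 2) ℤ).trace| ≤ 1 →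
      ∃ (δ g : SL(2, ℤ)), (g = 1 ∨ g = ModularGroup.S ∨ g = genU ∨ g = genU ^ 2) ∧
        (γ = δ * g * δ⁻¹ ∨ γ = -(δ * g * δ⁻¹)) := by
  induction m using Nat.strong_induction_on with
  | _ m ih =>
  intro γ hm ht
  have htr := trace_eq γ
  rw [htr] at ht
  have hdet := det_eq γ
  have hc : γ 1 0 ≠ 0 := by
    intro hc
    rw [hc, mul_zero, sub_zero] at hdet
    rcases Int.eq_one_or_neg_one_of_mul_eq_one' hdet with ⟨h1, h2⟩ | ⟨h1, h2⟩ <;>
      rw [h1, h2] at ht <;> norm_num at ht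
  have hback : ∀ (ε : SL(2, ℤ)) (γ' : SL(2, ℤ)), γ' = ε * γ * ε⁻¹ →
      (∃ (δ g : SL(2, ℤ)), (g = 1 ∨ g = ModularGroup.S ∨ g = genU ∨ g = genU ^ 2) ∧
        (γ' = δ * g * δ⁻¹ ∨ γ' = -(δ * g * δ⁻¹))) →
      ∃ (δ g : SL(2, ℤ)), (g = 1 ∨ g = ModularGroup.S ∨ g = genU ∨ g = genU ^ 2) ∧
        (γ = δ * g * δ⁻¹ ∨ γ = -(δ * g * δ⁻¹)) := by
    rintro ε γ' rfl ⟨δ, g, hg, h⟩
    refine ⟨ε⁻¹ * δ, g, hg, h.imp (fun e => ?_) (fun e => ?_)⟩
    · calc γ = ε⁻¹ * (ε * γ * ε⁻¹) * ε := by group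
        _ = _ := by rw [e]; group
    · calc γ = ε⁻¹ * (ε * γ * ε⁻¹) * ε := by group
        _ = _ := by rw [e, mul_neg, neg_mul]; congr 1; group
  by_cases h1 : m = 1
  · -- normal forms
    have hnorm : ∀ γ : SL(2, ℤ), γ 1 0 = 1 → |γ 0 0 + γ 1 1| ≤ 1 →
        ∃ (δ g : SL(2, ℤ)), (g = 1 ∨ g = ModularGroup.S ∨ g = genU ∨ g = genU ^ 2) ∧
          γ = δ * g * δ⁻¹ := by
      intro γ hc ht
      have hd := det_eq γ
      rw [hc, mul_one] at hd
      obtain ⟨t, htt⟩ : ∃ t, γ 0 0 + γ 1 1 = t := ⟨_, rfl⟩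
      rw [htt, abs_le] at ht
      have hk : ∀ a : ℤ, ∀ g : SL(2, ℤ), g 0 0 = a → g 1 0 = 1 → g 0 0 + g 1 1 = t →
          γ = ModularGroup.T ^ (γ 0 0 - a) * g * (ModularGroup.T ^ (γ 0 0 - a))⁻¹ := by
        intro a g ga gc gt
        have gd := det_eq g
        rw [gc, mul_one] at gd
        obtain ⟨e0, e1⟩ := conj_T_zpow_apply (γ := g) (γ 0 0 - a)
        set g' := ModularGroup.T ^ (γ 0 0 - a) * g * (ModularGroup.T ^ (γ 0 0 - a))⁻¹ with hg'
        have e2 : g' 0 0 + g' 1 1 = t := by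
          rw [← trace_eq, hg', trace_conj, trace_eq, gt]
        have e3 := det_eq g'
        rw [ga, gc, mul_one, add_sub_cancel] at e0
        rw [gc] at e1
        rw [e1, mul_one] at e3
        have e11 : g' 1 1 = γ 1 1 := by linarith
        rw [e0, e11] at e3
        apply Subtype.ext
        ext i j
        fin_cases i <;> fin_cases j
        · exact e0.symm
        · exact show γ 0 1 = g' 0 1 by linarith
        · exact hc.trans e1.symm
        · exact e11.symm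
      rcases (show t = -1 ∨ t = 0 ∨ t = 1 by omega) with rfl | rfl | rfl
      · refine ⟨_, genU ^ 2, by simp, hk 0 _ ?_ ?_ ?_⟩ <;>
          simp [coe_genU, sq, Matrix.mul_apply, Fin.sum_univ_two]
      · refine ⟨_, ModularGroup.S, by simp, hk 0 _ ?_ ?_ ?_⟩ <;> simp [ModularGroup.coe_S]
      · refine ⟨_, genU, by simp, hk 1 _ ?_ ?_ ?_⟩ <;> simp [coe_genU]
    rcases Int.natAbs_eq (γ 1 0) with hc1 | hc1 <;> rw [hm, h1] at hc1
    · obtain ⟨δ, g, hg, e⟩ := hnorm γ (by simpa using hc1) ht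
      exact ⟨δ, g, hg, Or.inl e⟩
    · obtain ⟨δ, g, hg, e⟩ := hnorm (-γ) (by simp [hc1]) (by
        rw [show (-γ) 0 0 + (-γ) 1 1 = -(γ 0 0 + γ 1 1) by simp; ring, abs_neg]; exact ht)
      exact ⟨δ, g, hg, Or.inr (by rw [← e, neg_neg])⟩
  -- reduce the lower left entry
  obtain ⟨k, hk⟩ := exists_sub_le (γ 0 0 - γ 1 1) (γ 1 0) hc
  set γ' := ModularGroup.T ^ k * γ * (ModularGroup.T ^ k)⁻¹ with hγ'
  obtain ⟨e0, e1⟩ := conj_T_zpow_apply (γ := γ) k
  rw [← hγ'] at e0 e1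
  have e2 : γ' 0 0 + γ' 1 1 = γ 0 0 + γ 1 1 := by rw [← trace_eq, ← trace_eq, hγ', trace_conj]
  have hd' := det_eq γ'
  rw [e1] at hd'
  have hsmall : (γ' 0 1).natAbs < m := by
    have hsq : (γ' 0 0 - γ' 1 1) ^ 2 ≤ γ 1 0 ^ 2 := by
      rw [sq_le_sq, show γ' 0 0 - γ' 1 1 = γ 0 0 - γ 1 1 + 2 * γ 1 0 * k by linarith]
      exact hk
    have hc2 : (2 : ℤ) ≤ |γ 1 0| := by
      rw [Int.abs_eq_natAbs, hm]
      have : m ≠ 0 := fun h0 => hc (by rw [h0] at hm; exact Int.natAbs_eq_zero.mp hm)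
      omega
    have hid : -4 * (γ' 0 1 * γ 1 0) =
        4 + (γ' 0 0 - γ' 1 1) ^ 2 - (γ' 0 0 + γ' 1 1) ^ 2 := by linear_combination 4 * hd'
    have hb : -4 * (γ' 0 1 * γ 1 0) ≤ 4 + γ 1 0 ^ 2 := by
      linarith [sq_nonneg (γ' 0 0 + γ' 1 1)]
    have hb2 : 0 ≤ -(γ' 0 1 * γ 1 0) := by
      have : (γ' 0 0 + γ' 1 1) ^ 2 ≤ 1 := by rw [e2]; exact sq_le_one_iff_abs_le_one _ |>.mpr ht
      nlinarith [sq_nonneg (γ' 0 0 - γ' 1 1)]
    have hb3 : 4 * (|γ' 0 1| * |γ 1 0|) ≤ 4 + |γ 1 0| ^ 2 := by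
      rw [← abs_mul, abs_of_nonpos (show γ' 0 1 * γ 1 0 ≤ 0 by linarith), sq_abs]; linarith
    have : |γ' 0 1| < |γ 1 0| := by nlinarith [abs_nonneg (γ' 0 1)]
    rw [Int.abs_eq_natAbs, Int.abs_eq_natAbs, hm] at this
    exact_mod_cast this
  refine hback _ (ModularGroup.S * γ' * ModularGroup.S⁻¹)
    (show _ = (ModularGroup.S * ModularGroup.T ^ k) * γ * (ModularGroup.S * ModularGroup.T ^ k)⁻¹ by
      rw [hγ']; group)
    (ih _ hsmall _ ?_ ?_)
  · simp [coe_mul, ModularGroup.coe_S, Matrix.mul_apply, Fin.sum_univ_two,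
      Matrix.adjugate_fin_two, Matrix.vecMul, dotProduct]
  · rw [trace_conj, trace_eq, e2]; exact ht

/-- Finite order elements are conjugate to `±1`, `±S`, `±U`, `±U²`. -/
theorem exists_conj_of_isOfFinOrder (h : IsOfFinOrder γ) :
    ∃ (δ g : SL(2, ℤ)), (g = 1 ∨ g = ModularGroup.S ∨ g = genU ∨ g = genU ^ 2) ∧
      (γ = δ * g * δ⁻¹ ∨ γ = -(δ * g * δ⁻¹)) := by
  have h2 := abs_trace_le_two_of_isOfFinOrder h
  by_cases h1 : |(γ : Matrix (Fin 2) (Fin 2) ℤ).trace| ≤ 1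
  · exact exists_conj_of_small _ γ rfl h1
  have h4 : (γ : Matrix (Fin 2) (Fin 2) ℤ).trace ^ 2 = 4 := by
    rw [← sq_abs, show |(γ : Matrix (Fin 2) (Fin 2) ℤ).trace| = 2 by omega]; norm_num
  obtain ⟨δ, n, e⟩ := exists_conj_T_zpow_of_trace h4
  obtain ⟨m, hm, hγm⟩ := isOfFinOrder_iff_pow_eq_one.mp h
  have hsq : (δ * ModularGroup.T ^ n * δ⁻¹) ^ (2 * m) = 1 := by
    rcases e with e | e
    · rw [← e, mul_comm, pow_mul, hγm, one_pow]
    · rw [← neg_neg (δ * ModularGroup.T ^ n * δ⁻¹), ← e, neg_pow, mul_comm 2 m, pow_mul γ, hγm,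
        one_pow, mul_one, pow_mul', neg_one_sq, one_pow]
  have hn : n = 0 := by
    rw [conj_pow, conj_eq_one_iff, ← zpow_natCast, ← zpow_mul] at hsq
    have := congrArg (fun g : SL(2, ℤ) => (g : Matrix (Fin 2) (Fin 2) ℤ) 0 1) hsq
    simp [ModularGroup.coe_T_zpow, hm.ne'] at this
    exact this
  subst hn
  exact ⟨δ, 1, Or.inl rfl, by simpa using e⟩

end Trace

theorem gamma0_le_gamma0_of_dvd {N M : ℕ} (h : N ∣ M) : Gamma0 M ≤ Gamma0 N := by
  intro γ hγ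
  rw [Gamma0_mem, ZMod.intCast_zmod_eq_zero_iff_dvd] at hγ ⊢
  exact (Int.natCast_dvd_natCast.mpr h).trans hγ

private theorem exists_isCoprime_add_mul {c d : ℤ} (h : IsCoprime c d) (M : ℕ) [NeZero M] :
    ∃ j : ℤ, IsCoprime (d + j * c) (M : ℤ) := by
  classical
  refine ⟨(∏ p ∈ M.primeFactors with ¬ ((p : ℕ) : ℤ) ∣ d, (p : ℤ)), ?_⟩
  rw [Int.isCoprime_iff_nat_coprime, Int.natAbs_natCast]
  refine Nat.coprime_of_dvd fun p hp hp1 hp2 => ?_
  rw [← Int.natCast_dvd] at hp1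
  have hpP : Prime (p : ℤ) := Nat.prime_iff_prime_int.mp hp
  have hpM : p ∈ M.primeFactors := Nat.mem_primeFactors.mpr ⟨hp, hp2, NeZero.ne M⟩
  by_cases hd : (p : ℤ) ∣ d
  · rcases hpP.dvd_or_dvd ((dvd_add_right hd).mp hp1) with hj | hc
    · obtain ⟨q, hq, hpq⟩ := (hpP.dvd_finsetProd_iff _).mp hj
      rw [Finset.mem_filter] at hq
      have : p = q := (Nat.prime_dvd_prime_iff_eq hp (Nat.prime_of_mem_primeFactors hq.1)).mp
        (by exact_mod_cast hpq)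
      exact hq.2 (this ▸ hd)
    · exact hpP.not_isUnit (h.isUnit_of_dvd' hc hd)
  · refine hd ((dvd_add_left ?_).mp hp1)
    exact dvd_mul_of_dvd_left
      (Finset.dvd_prod_of_mem (fun p : ℕ => (p : ℤ)) (Finset.mem_filter.mpr ⟨hpM, hd⟩)) c

/-- `Γ₀(N)` is generated by `Γ₀(M)` (`N ∣ M`) together with parabolic elements. -/
theorem closure_gamma0_union_parabolic {N M : ℕ} [NeZero M] (h : N ∣ M) :
    Subgroup.closure
      ({γ : Gamma0 N | (γ : SL(2, ℤ)) ∈ Gamma0 M} ∪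
        {γ : Gamma0 N | ((γ : SL(2, ℤ)) : Matrix (Fin 2) (Fin 2) ℤ).trace ^ 2 = 4}) = ⊤ := by
  rw [eq_top_iff]
  intro γ _
  set K := Subgroup.closure
      ({γ : Gamma0 N | (γ : SL(2, ℤ)) ∈ Gamma0 M} ∪
        {γ : Gamma0 N | ((γ : SL(2, ℤ)) : Matrix (Fin 2) (Fin 2) ℤ).trace ^ 2 = 4})
  obtain ⟨c', hc'⟩ : (N : ℤ) ∣ (γ : SL(2, ℤ)) 1 0 :=
    (ZMod.intCast_zmod_eq_zero_iff_dvd _ _).mp (Gamma0_mem.mp γ.2)
  have hco : IsCoprime ((γ : SL(2, ℤ)) 1 0) ((γ : SL(2, ℤ)) 1 1) :=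
    ⟨-(γ : SL(2, ℤ)) 0 1, (γ : SL(2, ℤ)) 0 0, by linear_combination det_eq (γ : SL(2, ℤ))⟩
  obtain ⟨j, hj⟩ := exists_isCoprime_add_mul hco M
  obtain ⟨u, v, huv⟩ := hj
  set d' := (γ : SL(2, ℤ)) 1 1 + j * (γ : SL(2, ℤ)) 1 0 with hd'
  let A : SL(2, ℤ) := ModularGroup.T ^ j
  have hA : A ∈ Gamma0 N := by simp [A, ModularGroup.coe_T_zpow]
  let B : SL(2, ℤ) := ⟨!![1, 0; (N : ℤ) * (-c' * u), 1], by simp [Matrix.det_fin_two_of]⟩
  have hB : B ∈ Gamma0 N := by simp [B]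
  have hp : ∀ x : Gamma0 N, ((x : SL(2, ℤ)) : Matrix (Fin 2) (Fin 2) ℤ).trace = 2 → x ∈ K :=
    fun x hx => Subgroup.subset_closure (Or.inr (by simp [hx]))
  have h1 : (⟨A, hA⟩ : Gamma0 N) ∈ K := hp _ (by simp [A, ModularGroup.coe_T_zpow, Matrix.trace_fin_two])
  have h2 : (⟨B, hB⟩ : Gamma0 N) ∈ K := hp _ (by simp [B, Matrix.trace_fin_two])
  have h3 : γ * ⟨A, hA⟩ * ⟨B, hB⟩ ∈ K := by
    refine Subgroup.subset_closure (Or.inl ?_)
    show ((γ : SL(2, ℤ)) * A * B) ∈ Gamma0 M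
    rw [Gamma0_mem, ZMod.intCast_zmod_eq_zero_iff_dvd]
    refine ⟨(γ : SL(2, ℤ)) 1 0 * v, ?_⟩
    simp [A, B, coe_mul, ModularGroup.coe_T_zpow, Matrix.mul_apply, Fin.sum_univ_two]
    linear_combination ((γ : SL(2, ℤ)) 1 0) * (-huv) + (u * d') * hc' + (u * (N : ℤ) * c') * hd'
  exact (mul_mem_cancel_right h1).mp ((mul_mem_cancel_right h2).mp h3)

end FLTAgent.Period
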