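import Fermat.Agent.Period.Defs
import Fermat.Agent.Period.SL2

/-!
# Elementary properties of `Period.H N R A`

Membership lemmas, equality with `parabolicHoms` for torsion-free coefficients
(`H_eq_parabolicHoms`), stability under the conjugation involution (`charInvolution_mem_H`),
change of coefficients (`mapCoeff`) and restriction to a multiple of the level (`restrictH`), which
is injective (`restrictH_injective`) as `Γ₀(N)` is generated by `Γ₀(M)` and parabolic elements.
-/

set_option autoImplicit false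

open CongruenceSubgroup ModularCurve.Period
open scoped MatrixGroups

namespace FLTAgent.Period

variable {N : ℕ} {R A : Type*} [Semiring R] [AddCommGroup A] [Module R A]

theorem mem_H_iff {φ : Additive (Gamma0 N) →+ A} :
    φ ∈ H N R A ↔ φ ∈ parabolicHoms R (Gamma0 N) A ∧
      ∀ γ : Gamma0 N, IsOfFinOrder γ → φ (Additive.ofMul γ) = 0 := Iff.rfl

theorem H_le_parabolicHoms : H N R A ≤ parabolicHoms R (Gamma0 N) A := fun _ h => h.1

theorem H_parabolic (φ : H N R A) {γ : Gamma0 N}
    (hγ : ((γ : SL(2, ℤ)) : Matrix (Fin 2) (Fin 2) ℤ).trace ^ 2 = 4) :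
    (φ : Additive (Gamma0 N) →+ A) (Additive.ofMul γ) = 0 := φ.2.1 γ hγ

theorem H_finOrder (φ : H N R A) {γ : Gamma0 N} (hγ : IsOfFinOrder γ) :
    (φ : Additive (Gamma0 N) →+ A) (Additive.ofMul γ) = 0 := φ.2.2 γ hγ

theorem parabolicHoms_le_H [IsAddTorsionFree A] :
    parabolicHoms R (Gamma0 N) A ≤ H N R A := by
  refine fun φ hφ => ⟨hφ, fun γ hγ => ?_⟩
  obtain ⟨n, hn, hγn⟩ := isOfFinOrder_iff_pow_eq_one.mp hγ
  have : n • φ (Additive.ofMul γ) = 0 := by
    rw [← map_nsmul, ← ofMul_pow, hγn, ofMul_one, map_zero]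
  exact (smul_eq_zero_iff_right hn.ne').mp this

/-- In a torsion-free module every parabolic homomorphism kills the finite order elements. -/
theorem H_eq_parabolicHoms [IsAddTorsionFree A] : H N R A = parabolicHoms R (Gamma0 N) A :=
  le_antisymm H_le_parabolicHoms parabolicHoms_le_H

theorem charInvolution_mem_H {φ : Additive (Gamma0 N) →+ A} (hφ : φ ∈ H N R A) :
    charInvolution N R A φ ∈ H N R A :=
  ⟨charInvolution_mem_parabolicHoms N R A hφ.1,
    fun _ hγ => hφ.2 _ ((jConjGamma0 N).isOfFinOrder hγ)⟩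

/-- Postcomposition with a linear map. -/
def mapCoeff {B : Type*} [AddCommGroup B] [Module R B] (f : A →ₗ[R] B) :
    H N R A →ₗ[R] H N R B where
  toFun φ := ⟨f.toAddMonoidHom.comp (φ : Additive (Gamma0 N) →+ A),
    ⟨fun γ hγ => by simp [H_parabolic φ hγ], fun γ hγ => by simp [H_finOrder φ hγ]⟩⟩
  map_add' φ ψ := Subtype.ext (AddMonoidHom.ext fun γ => by simp)
  map_smul' r φ := Subtype.ext (AddMonoidHom.ext fun γ => by simp)

@[simp] theorem mapCoeff_apply {B : Type*} [AddCommGroup B] [Module R B] (f : A →ₗ[R] B)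
    (φ : H N R A) (γ : Additive (Gamma0 N)) :
    (mapCoeff f φ : Additive (Gamma0 N) →+ B) γ = f ((φ : Additive (Gamma0 N) →+ A) γ) := rfl

/-- Restriction to a higher level. -/
def restrictH {M : ℕ} (h : N ∣ M) : H N R A →ₗ[R] H M R A where
  toFun φ := ⟨(φ : Additive (Gamma0 N) →+ A).comp
      (MonoidHom.toAdditive (Subgroup.inclusion (gamma0_le_gamma0_of_dvd h))),
    ⟨fun _ hγ => H_parabolic φ hγ,
      fun _ hγ => H_finOrder φ ((Subgroup.inclusion _).isOfFinOrder hγ)⟩⟩
  map_add' _ _ := rfl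
  map_smul' _ _ := rfl

@[simp] theorem restrictH_apply {M : ℕ} (h : N ∣ M) (φ : H N R A) (γ : Gamma0 M) :
    (restrictH h φ : Additive (Gamma0 M) →+ A) (Additive.ofMul γ) =
      (φ : Additive (Gamma0 N) →+ A)
        (Additive.ofMul (⟨γ, gamma0_le_gamma0_of_dvd h γ.2⟩ : Gamma0 N)) := rfl

theorem restrictH_injective {M : ℕ} [NeZero M] (h : N ∣ M) :
    Function.Injective (restrictH (R := R) (A := A) h) := by
  intro φ ψ hφψ
  refine Subtype.ext (AddMonoidHom.ext fun γ => ?_)
  suffices ∀ x : Gamma0 N, (φ : Additive (Gamma0 N) →+ A) (Additive.ofMul x) =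
      (ψ : Additive (Gamma0 N) →+ A) (Additive.ofMul x) from this γ.toMul
  intro x
  have hmem : x ∈ Subgroup.closure
      ({γ : Gamma0 N | (γ : SL(2, ℤ)) ∈ Gamma0 M} ∪
        {γ : Gamma0 N | ((γ : SL(2, ℤ)) : Matrix (Fin 2) (Fin 2) ℤ).trace ^ 2 = 4}) := by
    rw [closure_gamma0_union_parabolic h]; trivial
  induction hmem using Subgroup.closure_induction with
  | mem x hx =>
    rcases hx with hx | hx
    · exact DFunLike.congr_fun (congrArg Subtype.val hφψ)
        (Additive.ofMul (⟨(x : SL(2, ℤ)), hx⟩ : Gamma0 M))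
    · rw [H_parabolic φ hx, H_parabolic ψ hx]
  | one => simp
  | mul x y _ _ hx hy => rw [ofMul_mul, map_add, map_add, hx, hy]
  | inv x _ hx => rw [ofMul_inv, map_neg, map_neg, hx]

end FLTAgent.Period
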