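import Mathlib

/-!
# Sums over the orbits of one group element

For `g` acting on a finite set `X`: the orbit space `OrbitsOf g X`, the linear map `orbitSum`
summing a function over each orbit, its surjectivity (`orbitSum_surjective`), and the count
`card_orbitsOf_prime` of the orbits when `g` acts with prime period `p`.
-/

set_option autoImplicit false

open MulAction Function Finset

noncomputable section

namespace FLTAgent.Period

variable {G X : Type*} [Group G] [MulAction G X]

/-- The orbits of `g` on `X`. -/
abbrev OrbitsOf (g : G) (X : Type*) [MulAction G X] : Type _ :=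
  MulAction.orbitRel.Quotient (Subgroup.zpowers g) X

/-- The orbit of `x` under the powers of `g`. -/
abbrev toOrbit (g : G) (x : X) : OrbitsOf g X := Quotient.mk'' x

theorem toOrbit_eq_iff {g : G} {x y : X} : toOrbit g x = toOrbit g y ↔ ∃ n : ℤ, g ^ n • y = x := by
  rw [toOrbit, toOrbit, Quotient.eq'', MulAction.orbitRel_apply, MulAction.mem_orbit_iff]
  constructor
  · rintro ⟨⟨_, n, rfl⟩, hn⟩; exact ⟨n, hn⟩
  · rintro ⟨n, hn⟩; exact ⟨⟨g ^ n, n, rfl⟩, hn⟩

theorem toOrbit_smul (g : G) (x : X) : toOrbit g (g • x) = toOrbit g x :=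
  toOrbit_eq_iff.mpr ⟨1, by rw [zpow_one]⟩

variable [Fintype X]

theorem period_pos (g : G) (x : X) : 0 < minimalPeriod (g • ·) x := by
  apply minimalPeriod_pos_of_mem_periodicPts
  exact (MulAction.injective g).mem_periodicPts x

open scoped Classical in
theorem sum_orbit_eq_sum_range {M : Type*} [AddCommMonoid M] (g : G) (f : X → M) (x : X) :
    ∑ y with toOrbit g y = toOrbit g x, f y =
      ∑ k ∈ range (minimalPeriod (g • ·) x), f (g ^ k • x) := by
  have hinj : Set.InjOn (fun k => g ^ k • x) (range (minimalPeriod (g • ·) x) : Set ℕ) := by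
    intro a ha b hb hab
    refine iterate_injOn_Iio_minimalPeriod (by simpa using ha) (by simpa using hb) ?_
    simpa [smul_iterate] using hab
  rw [← Finset.sum_image (f := f) hinj]
  congr 1
  ext y
  simp only [Finset.mem_filter, Finset.mem_univ, true_and, Finset.mem_image, Finset.mem_range]
  refine ⟨fun h => ?_, ?_⟩
  · obtain ⟨n, rfl⟩ := toOrbit_eq_iff.mp h
    set m := minimalPeriod (g • ·) x with hm
    have hpos : 0 < m := period_pos g x
    refine ⟨(n % m).toNat, ?_, ?_⟩
    · have := Int.emod_lt_of_pos n (show (0 : ℤ) < m by exact_mod_cast hpos)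
      omega
    · rw [← zpow_natCast, Int.toNat_of_nonneg (Int.emod_nonneg _ (by omega)), hm,
        zpow_smul_mod_minimalPeriod]
  · rintro ⟨k, -, rfl⟩
    exact toOrbit_eq_iff.mpr ⟨k, by rw [zpow_natCast]⟩

/-- The fintype instance of the orbits. -/
instance fintypeOrbitsOf (g : G) : Fintype (OrbitsOf g X) := Fintype.ofFinite _

variable (K : Type*) [CommSemiring K]

open scoped Classical in
/-- Sum over each orbit. -/
def orbitSum (g : G) : (X → K) →ₗ[K] (OrbitsOf g X → K) where
  toFun f o := ∑ y with toOrbit g y = o, f y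
  map_add' _ _ := funext fun _ => Finset.sum_add_distrib
  map_smul' _ _ := funext fun _ => by simp [Finset.mul_sum]

variable {K}

theorem orbitSum_toOrbit (g : G) (f : X → K) (x : X) :
    orbitSum K g f (toOrbit g x) = ∑ k ∈ range (minimalPeriod (g • ·) x), f (g ^ k • x) :=
  sum_orbit_eq_sum_range g f x

theorem orbitSum_eq_zero_iff (g : G) (f : X → K) :
    orbitSum K g f = 0 ↔ ∀ x, ∑ k ∈ range (minimalPeriod (g • ·) x), f (g ^ k • x) = 0 := by
  refine ⟨fun h x => by rw [← orbitSum_toOrbit, h]; rfl, fun h => funext fun o => ?_⟩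
  induction o using Quotient.inductionOn' with
  | h x => exact (orbitSum_toOrbit g f x).trans (h x)

theorem sum_range_eq_zero_of_orbitSum {g : G} {f : X → K} (h : orbitSum K g f = 0) {x : X} {n : ℕ}
    (hn : g ^ n • x = x) : ∑ k ∈ range n, f (g ^ k • x) = 0 := by
  obtain ⟨q, rfl⟩ := MulAction.pow_smul_eq_iff_minimalPeriod_dvd.mp hn
  clear hn
  induction q with
  | zero => simp
  | succ q ih =>
    rw [Nat.mul_succ, Finset.sum_range_add, ih, zero_add]
    have hq : g ^ (minimalPeriod (g • ·) x * q) • x = x :=
      MulAction.pow_smul_eq_iff_minimalPeriod_dvd.mpr (dvd_mul_right _ _)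
    rw [← (orbitSum_eq_zero_iff g f).mp h x]
    refine Finset.sum_congr rfl fun k _ => ?_
    rw [Nat.add_comm, pow_add, mul_smul, hq]

theorem sum_orbitSum (g : G) (f : X → K) : ∑ o, orbitSum K g f o = ∑ x, f x := by
  classical
  exact Finset.sum_fiberwise Finset.univ (toOrbit g) f

theorem orbitSum_single [DecidableEq X] (g : G) [DecidableEq (OrbitsOf g X)] (x : X) (a : K) :
    orbitSum K g (Pi.single x a) = Pi.single (toOrbit g x) a := by
  classical
  funext o
  simp only [orbitSum, LinearMap.coe_mk, AddHom.coe_mk]
  rcases eq_or_ne (toOrbit g x) o with h | h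
  · subst h; simp
  · rw [Pi.single_eq_of_ne h.symm]
    simp [h]

theorem orbitSum_surjective (g : G) : Surjective (orbitSum K g (X := X)) := by
  classical
  intro w
  refine ⟨∑ o, Pi.single (Quotient.out o) (w o), ?_⟩
  rw [map_sum]
  conv_rhs => rw [← Finset.univ_sum_single w]
  refine Finset.sum_congr rfl fun o _ => ?_
  rw [orbitSum_single]
  congr 1
  exact Quotient.out_eq' o

/-- Counting orbits of an element acting with prime period. -/
theorem card_orbitsOf_prime {g : G} {p : ℕ} (hp : p.Prime) (hg : ∀ x : X, g ^ p • x = x) :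
    p * Nat.card (OrbitsOf g X) = Nat.card X + (p - 1) * Nat.card {x : X // g • x = x} := by
  classical
  have key := sum_orbit_eq_sum_range (G := G) (X := X) (M := ℕ) g
    (fun y => 1 + if g • y = y then p - 1 else 0)
  have h1 : ∀ o : OrbitsOf g X,
      ∑ y with toOrbit g y = o, (1 + if g • y = y then p - 1 else 0 : ℕ) = p := by
    intro o
    induction o using Quotient.inductionOn' with
    | h x =>
      rw [key x]
      rcases (Nat.dvd_prime hp).mp
        (MulAction.pow_smul_eq_iff_minimalPeriod_dvd.mp (hg x)) with h | h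
      · have hx : g • x = x := by
          simpa [h] using (MulAction.pow_smul_eq_iff_minimalPeriod_dvd (a := g) (b := x)
            (n := 1)).mpr (by rw [h])
        have := hp.one_le
        simp [h, hx]
        omega
      · rw [h]
        have hne : ∀ k : ℕ, ¬ g • g ^ k • x = g ^ k • x := by
          intro k hk
          rw [← mul_smul, ← pow_succ', pow_succ, mul_smul, smul_left_cancel_iff] at hk
          have := MulAction.pow_smul_eq_iff_minimalPeriod_dvd.mp
            (show g ^ 1 • x = x by rwa [pow_one])
          rw [h, Nat.dvd_one] at this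
          exact hp.ne_one this
        simp [hne]
  have h2 := Finset.sum_fiberwise Finset.univ (toOrbit g)
    (fun y : X => (1 + if g • y = y then p - 1 else 0 : ℕ))
  simp only [h1, Finset.sum_add_distrib, Finset.sum_const, smul_eq_mul, ← Finset.sum_filter,
    Finset.card_univ, mul_one] at h2
  rw [Nat.card_eq_fintype_card, Nat.card_eq_fintype_card, Nat.card_eq_fintype_card,
    Fintype.card_subtype, mul_comm (p - 1), mul_comm p]
  exact h2

end FLTAgent.Period
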