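import Fermat.Agent.Period.Basic
import Fermat.Agent.Period.OrbitSum
import Fermat.Agent.ModularPlaces.CuspCount
import Fermat.Agent.ModularCosets.CosetIndex
import Fermat.Prelude.Def_ModularCurve_GenusNumerics

/-!
# The dimension of `Period.H N K K` over a field

Main result: `finrank_H_field`, `dim_K (H N K K) = 2 g(X₀(N))` in every characteristic, with `g`
given by the genus formula. Idea: by a Shapiro-type argument a pair (character, function on cosets)
is a cocycle on `SL(2, ℤ) / Γ₀(N)`, determined by its values at `S` and `U`; these values run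
through the pairs with vanishing orbit sums for `S`, `U`, `T` (`toPairs_surjective`, using
`PSL(2, ℤ) = C₂ * C₃`), and counting orbits gives the dimension (`finrank_ker_sums`).
-/

set_option autoImplicit false

open CongruenceSubgroup Matrix.SpecialLinearGroup ModularGroup
open scoped MatrixGroups

noncomputable section

namespace FLTAgent.Period

/-- The cosets of `Γ₀(N)`. -/
abbrev Cosets (N : ℕ) : Type := SL(2, ℤ) ⧸ Gamma0 N

section Basics

variable {N : ℕ}

theorem neg_one_mem_Gamma0 : (-1 : SL(2, ℤ)) ∈ Gamma0 N := by simp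

theorem neg_one_smul_coset (x : Cosets N) : (-1 : SL(2, ℤ)) • x = x := by
  induction x using QuotientGroup.induction_on with
  | H g =>
    show ((((-1 : SL(2, ℤ)) * g : SL(2, ℤ))) : Cosets N) = (g : Cosets N)
    rw [QuotientGroup.eq]
    simp

theorem neg_smul_coset (g : SL(2, ℤ)) (x : Cosets N) : (-g) • x = g • x := by
  rw [← neg_one_mul, mul_smul, neg_one_smul_coset]

theorem T_eq : T = -(genU * S) := by
  rw [genU, mul_assoc, ← sq, S_sq, mul_neg, mul_one, neg_neg]

theorem T_smul_eq (x : Cosets N) : T • x = genU • S • x := by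
  rw [← mul_smul, ← neg_smul_coset (genU * S), ← T_eq]

/-- The element of `Γ₀(N)` attached to `g` and a coset by the chosen representatives. -/
def twist (g : SL(2, ℤ)) (x : Cosets N) : Gamma0 N :=
  ⟨(g • x).out⁻¹ * g * x.out, by
    have h : ((g • x).out : Cosets N) = ((g * x.out : SL(2, ℤ)) : Cosets N) := by
      rw [QuotientGroup.out_eq']
      conv_lhs => rw [← QuotientGroup.out_eq' x]
      rfl
    rw [QuotientGroup.eq, ← mul_assoc] at h
    exact h⟩

theorem twist_mul (g h : SL(2, ℤ)) (x : Cosets N) :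
    twist (g * h) x = twist g (h • x) * twist h x := by
  apply Subtype.ext
  show ((g * h) • x).out⁻¹ * (g * h) * x.out =
    (g • h • x).out⁻¹ * g * (h • x).out * ((h • x).out⁻¹ * h * x.out)
  rw [mul_smul]; group

theorem twist_one (x : Cosets N) : twist (1 : SL(2, ℤ)) x = 1 := by
  apply Subtype.ext
  show ((1 : SL(2, ℤ)) • x).out⁻¹ * 1 * x.out = 1
  rw [one_smul]; group

theorem twist_neg_one (x : Cosets N) : ((twist (-1 : SL(2, ℤ)) x : Gamma0 N) : SL(2, ℤ)) = -1 := by
  show ((-1 : SL(2, ℤ)) • x).out⁻¹ * -1 * x.out = -1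
  rw [neg_one_smul_coset, mul_neg, mul_one, neg_mul, inv_mul_cancel]

end Basics

/-- The cocycle identity. -/
def IsCosetCocycle {N : ℕ} {K : Type*} [AddCommGroup K] (c : SL(2, ℤ) → Cosets N → K) : Prop :=
  ∀ g h x, c (g * h) x = c g (h • x) + c h x

namespace IsCosetCocycle

variable {N : ℕ} {K : Type*} [AddCommGroup K] {c : SL(2, ℤ) → Cosets N → K}

theorem one (hc : IsCosetCocycle c) (x : Cosets N) : c 1 x = 0 := by
  have := hc 1 1 x
  rw [one_mul, one_smul] at this
  exact left_eq_add.mp this

theorem inv (hc : IsCosetCocycle c) (g : SL(2, ℤ)) (x : Cosets N) :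
    c g⁻¹ x = -c g (g⁻¹ • x) := by
  have := hc g g⁻¹ x
  rw [mul_inv_cancel, hc.one] at this
  exact eq_neg_of_add_eq_zero_right this.symm

theorem pow (hc : IsCosetCocycle c) (g : SL(2, ℤ)) (x : Cosets N) (n : ℕ) :
    c (g ^ n) x = ∑ k ∈ Finset.range n, c g (g ^ k • x) := by
  induction n with
  | zero => simp [hc.one]
  | succ n ih => rw [Finset.sum_range_succ, pow_succ', hc, ih, add_comm]

theorem neg (hc : IsCosetCocycle c) (h1 : ∀ x, c (-1) x = 0) (g : SL(2, ℤ)) (x : Cosets N) :
    c (-g) x = c g x := by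
  rw [← neg_one_mul, hc, h1, zero_add]

theorem conj (hc : IsCosetCocycle c) (δ g : SL(2, ℤ)) (x : Cosets N)
    (h : g • δ⁻¹ • x = δ⁻¹ • x) : c (δ * g * δ⁻¹) x = c g (δ⁻¹ • x) := by
  rw [hc, hc δ g, h, hc.inv δ x]; abel

theorem eq_zero_of_S_of_genU (hc : IsCosetCocycle c) (hS : ∀ x, c S x = 0)
    (hU : ∀ x, c genU x = 0) (g : SL(2, ℤ)) : ∀ x, c g x = 0 := by
  have hg : g ∈ Subgroup.closure ({S, T} : Set SL(2, ℤ)) := by
    rw [SpecialLinearGroup.SL2Z_generators]; trivial
  induction hg using Subgroup.closure_induction with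
  | mem x hx =>
    rcases hx with rfl | rfl
    · exact hS
    · intro x
      rw [show T = genU * S⁻¹ by rw [genU, mul_inv_cancel_right], hc, hU, hc.inv, hS]
      simp
  | one => exact hc.one
  | mul x y _ _ hx hy => intro z; rw [hc, hx, hy, add_zero]
  | inv x _ hx => intro z; rw [hc.inv, hx, neg_zero]

end IsCosetCocycle

section Field

variable (N : ℕ) [NeZero N] (K : Type*) [Field K]

instance fintypeCosets : Fintype (Cosets N) := Subgroup.fintypeQuotientOfFiniteIndex

/-- The pairs of functions on cosets. -/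
abbrev Pairs : Type _ := (Cosets N → K) × (Cosets N → K)

/-- The orbit sums of a pair, and of the induced function at `T`. -/
def sums : Pairs N K →ₗ[K]
    (OrbitsOf (S : SL(2, ℤ)) (Cosets N) → K) × (OrbitsOf genU (Cosets N) → K) ×
      (OrbitsOf (T : SL(2, ℤ)) (Cosets N) → K) :=
  ((orbitSum K (S : SL(2, ℤ))).comp (LinearMap.fst K _ _)).prod
    (((orbitSum K genU).comp (LinearMap.snd K _ _)).prod
      ((orbitSum K (T : SL(2, ℤ))).comp
        ((LinearMap.funLeft K K fun x : Cosets N => (S : SL(2, ℤ)) • x).comp (LinearMap.snd K _ _) +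
          LinearMap.fst K _ _)))

variable {N K}

theorem mem_ker_sums_iff {p : Pairs N K} : p ∈ LinearMap.ker (sums N K) ↔
    orbitSum K (S : SL(2, ℤ)) p.1 = 0 ∧ orbitSum K genU p.2 = 0 ∧
      orbitSum K (T : SL(2, ℤ)) (fun x => p.2 ((S : SL(2, ℤ)) • x) + p.1 x) = 0 := by
  rw [LinearMap.mem_ker]
  show ((_, _, _) : _ × _ × _) = (0, 0, 0) ↔ _
  simp only [Prod.mk.injEq]
  rfl

/-- Existence of the cocycle with given values at `S` and `U`. -/
theorem exists_cocycle {α β : Cosets N → K} (hα : orbitSum K (S : SL(2, ℤ)) α = 0)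
    (hβ : orbitSum K genU β = 0) :
    ∃ c : SL(2, ℤ) → Cosets N → K, IsCosetCocycle c ∧ (∀ x, c S x = α x) ∧
      (∀ x, c genU x = β x) ∧ ∀ x, c (-1) x = 0 := by
  let s : Equiv.Perm (Cosets N × K) :=
    Equiv.prodShear (MulAction.toPerm (S : SL(2, ℤ))) fun x => Equiv.addRight (α x)
  let u : Equiv.Perm (Cosets N × K) :=
    Equiv.prodShear (MulAction.toPerm genU) fun x => Equiv.addRight (β x)
  have hs_apply : ∀ x a, s (x, a) = ((S : SL(2, ℤ)) • x, a + α x) := fun _ _ => rfl
  have hu_apply : ∀ x a, u (x, a) = (genU • x, a + β x) := fun _ _ => rfl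
  have hs : s ^ 2 = 1 := by
    refine Equiv.ext fun ⟨x, a⟩ => ?_
    rw [sq, Equiv.Perm.mul_apply, hs_apply, hs_apply, ← mul_smul, ← sq, S_sq, neg_one_smul_coset]
    refine Prod.ext rfl ?_
    have := sum_range_eq_zero_of_orbitSum hα (x := x) (n := 2)
      (by rw [S_sq, neg_one_smul_coset])
    simp only [Finset.sum_range_succ, Finset.sum_range_zero, pow_zero, pow_one, one_smul,
      zero_add] at this
    show a + α x + α ((S : SL(2, ℤ)) • x) = a
    rw [add_assoc, this, add_zero]
  have hu : u ^ 3 = 1 := by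
    refine Equiv.ext fun ⟨x, a⟩ => ?_
    rw [pow_succ, sq, Equiv.Perm.mul_apply, Equiv.Perm.mul_apply, hu_apply, hu_apply, hu_apply]
    have e : genU • genU • genU • x = x := by
      rw [← mul_smul, ← mul_smul, ← sq, ← pow_succ, genU_pow_three, neg_one_smul_coset]
    refine Prod.ext e ?_
    have := sum_range_eq_zero_of_orbitSum hβ (x := x) (n := 3)
      (by rw [genU_pow_three, neg_one_smul_coset])
    simp only [Finset.sum_range_succ, Finset.sum_range_zero, pow_zero, pow_one, one_smul,
      zero_add, sq, mul_smul] at this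
    show a + β x + β (genU • x) + β (genU • genU • x) = a
    rw [add_assoc a, add_assoc a, this, add_zero]
  obtain ⟨f, hfS, hfU, hfm⟩ := exists_hom_SL2_of_relations s u hs hu
  let c : SL(2, ℤ) → Cosets N → K := fun g x => (f g (x, 0)).2
  have key : ∀ g x a, f g (x, a) = (g • x, a + c g x) := by
    intro g
    have hg : g ∈ Subgroup.closure ({S, T} : Set SL(2, ℤ)) := by
      rw [SpecialLinearGroup.SL2Z_generators]; trivial
    induction hg using Subgroup.closure_induction with
    | mem y hy =>
      rcases hy with rfl | rfl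
      · intro x a; simp only [c, hfS, hs_apply, zero_add]
      · have hT : (T : SL(2, ℤ)) = -1 * (genU * S) := by rw [neg_one_mul, ← T_eq]
        intro x a
        simp only [c]
        rw [hT, map_mul, map_mul, hfm, hfS, hfU, one_mul]
        simp only [Equiv.Perm.mul_apply, hs_apply, hu_apply, mul_smul, neg_one_smul_coset]
        refine Prod.ext rfl ?_
        show _ + _ + _ = _
        abel
    | one => intro x a; simp [c]
    | mul y z _ _ hy hz =>
      intro x a
      have e0 : c (y * z) x = c y (z • x) + c z x := by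
        show (f (y * z) (x, 0)).2 = _
        rw [map_mul, Equiv.Perm.mul_apply, hz x 0, hy _ _, zero_add, add_comm]
      rw [map_mul, Equiv.Perm.mul_apply, hz x a, hy _ _, mul_smul, e0]
      refine Prod.ext rfl ?_
      show a + c z x + c y (z • x) = _
      abel
    | inv y _ hy =>
      have h1 : ∀ x a, f y⁻¹ (x, a) = (y⁻¹ • x, a - c y (y⁻¹ • x)) := by
        intro x a
        rw [map_inv, Equiv.Perm.inv_eq_iff_eq, hy, smul_inv_smul, sub_add_cancel]
      intro x a
      simp only [c, h1]
      rw [sub_eq_add_neg, zero_sub]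
  refine ⟨c, fun g h x => ?_, fun x => by simp [c, hfS, hs_apply],
    fun x => by simp [c, hfU, hu_apply], fun x => by simp [c, hfm]⟩
  show (f (g * h) (x, 0)).2 = _
  rw [map_mul, Equiv.Perm.mul_apply, key h, zero_add, key g, add_comm]

variable (N K)

/-- The cocycle of a homomorphism and a coboundary, linearly. -/
def cocycleAt (g : SL(2, ℤ)) : H N K K × (Cosets N → K) →ₗ[K] (Cosets N → K) where
  toFun p x := (p.1 : Additive (Gamma0 N) →+ K) (Additive.ofMul (twist g x)) + p.2 (g • x) - p.2 x
  map_add' p q := funext fun x => by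
    simp only [Prod.fst_add, Prod.snd_add, Submodule.coe_add, AddMonoidHom.add_apply, Pi.add_apply]
    abel
  map_smul' r p := funext fun x => by
    simp only [Prod.smul_fst, Prod.smul_snd, SetLike.val_smul, AddMonoidHom.smul_apply,
      Pi.smul_apply, smul_eq_mul, RingHom.id_apply]
    ring

variable {N K}

theorem cocycleAt_apply (g : SL(2, ℤ)) (p : H N K K × (Cosets N → K)) (x : Cosets N) :
    cocycleAt N K g p x =
      (p.1 : Additive (Gamma0 N) →+ K) (Additive.ofMul (twist g x)) + p.2 (g • x) - p.2 x := rfl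

theorem isCosetCocycle_cocycleAt (p : H N K K × (Cosets N → K)) :
    IsCosetCocycle fun g x => cocycleAt N K g p x := by
  intro g h x
  simp only [cocycleAt_apply, twist_mul, ofMul_mul, map_add, mul_smul]
  abel

theorem cocycleAt_neg_one (p : H N K K × (Cosets N → K)) (x : Cosets N) :
    cocycleAt N K (-1) p x = 0 := by
  rw [cocycleAt_apply, neg_one_smul_coset, add_sub_cancel_right]
  refine H_finOrder p.1 (isOfFinOrder_iff_pow_eq_one.mpr ⟨2, two_pos, Subtype.ext ?_⟩)
  rw [SubmonoidClass.coe_pow, twist_neg_one, neg_one_sq]; rfl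

private theorem sum_range_cocycleAt (p : H N K K × (Cosets N → K)) {g : SL(2, ℤ)} {x : Cosets N}
    {m : ℕ} (hm : g ^ m • x = x) :
    ∑ k ∈ Finset.range m, cocycleAt N K g p (g ^ k • x) =
      (p.1 : Additive (Gamma0 N) →+ K) (Additive.ofMul (twist (g ^ m) x)) := by
  rw [← (isCosetCocycle_cocycleAt p).pow g x m, cocycleAt_apply, hm, add_sub_cancel_right]

private theorem twist_eq_conj {g : SL(2, ℤ)} {x : Cosets N} (h : g • x = x) :
    ((twist g x : Gamma0 N) : SL(2, ℤ)) = x.out⁻¹ * g * x.out := by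
  show (g • x).out⁻¹ * g * x.out = _
  rw [h]

theorem orbitSum_cocycleAt_finOrder (p : H N K K × (Cosets N → K)) {g : SL(2, ℤ)}
    (hg : IsOfFinOrder g) : orbitSum K g (cocycleAt N K g p) = 0 := by
  rw [orbitSum_eq_zero_iff]
  intro x
  set m := Function.minimalPeriod (g • ·) x
  have hm : g ^ m • x = x := MulAction.pow_smul_eq_iff_minimalPeriod_dvd.mpr dvd_rfl
  rw [sum_range_cocycleAt p hm]
  refine H_finOrder p.1 ?_
  obtain ⟨n, hn, hgn⟩ := isOfFinOrder_iff_pow_eq_one.mp hg
  refine isOfFinOrder_iff_pow_eq_one.mpr ⟨n, hn, Subtype.ext ?_⟩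
  rw [SubmonoidClass.coe_pow, twist_eq_conj hm]
  calc (x.out⁻¹ * g ^ m * x.out) ^ n = x.out⁻¹ * (g ^ m) ^ n * (x.out⁻¹)⁻¹ := by
        rw [← conj_pow, inv_inv]
    _ = 1 := by rw [← pow_mul, mul_comm m n, pow_mul, hgn, one_pow]; simp

theorem orbitSum_cocycleAt_T (p : H N K K × (Cosets N → K)) :
    orbitSum K (T : SL(2, ℤ)) (cocycleAt N K T p) = 0 := by
  rw [orbitSum_eq_zero_iff]
  intro x
  set m := Function.minimalPeriod ((T : SL(2, ℤ)) • ·) x
  have hm : (T : SL(2, ℤ)) ^ m • x = x := MulAction.pow_smul_eq_iff_minimalPeriod_dvd.mpr dvd_rfl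
  rw [sum_range_cocycleAt p hm]
  refine H_parabolic p.1 ?_
  rw [twist_eq_conj hm]
  conv_lhs => rw [show x.out⁻¹ * (T : SL(2, ℤ)) ^ m * x.out =
    x.out⁻¹ * (T : SL(2, ℤ)) ^ m * (x.out⁻¹)⁻¹ by rw [inv_inv]]
  rw [trace_conj, ← zpow_natCast, ModularGroup.coe_T_zpow, Matrix.trace_fin_two]
  simp

theorem cocycleAt_T_eq (p : H N K K × (Cosets N → K)) (x : Cosets N) :
    cocycleAt N K T p x =
      cocycleAt N K genU p ((S : SL(2, ℤ)) • x) + cocycleAt N K S p x := by
  have h := isCosetCocycle_cocycleAt p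
  have := (h.neg (cocycleAt_neg_one p) (genU * S) x)
  rw [T_eq, this]
  exact h genU S x

private theorem isOfFinOrder_S : IsOfFinOrder (S : SL(2, ℤ)) :=
  isOfFinOrder_iff_pow_eq_one.mpr ⟨4, by norm_num, by
    rw [show 4 = 2 * 2 from rfl, pow_mul, S_sq, neg_one_sq]⟩

private theorem isOfFinOrder_genU : IsOfFinOrder genU :=
  isOfFinOrder_iff_pow_eq_one.mpr ⟨6, by norm_num, by
    rw [show 6 = 3 * 2 from rfl, pow_mul, genU_pow_three, neg_one_sq]⟩

/-- The main comparison map. -/
def toPairs : H N K K × (Cosets N → K) →ₗ[K] LinearMap.ker (sums N K) :=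
  ((cocycleAt N K S).prod (cocycleAt N K genU)).codRestrict _ fun p =>
    mem_ker_sums_iff.mpr ⟨orbitSum_cocycleAt_finOrder p isOfFinOrder_S,
      orbitSum_cocycleAt_finOrder p isOfFinOrder_genU, by
        have := orbitSum_cocycleAt_T p
        rwa [show cocycleAt N K T p = fun x => cocycleAt N K genU p ((S : SL(2, ℤ)) • x) +
          cocycleAt N K S p x from funext (cocycleAt_T_eq p)] at this⟩

/-- The base coset. -/
abbrev baseCoset (N : ℕ) : Cosets N := ((1 : SL(2, ℤ)) : Cosets N)

theorem Gamma0_smul_baseCoset (γ : Gamma0 N) : (γ : SL(2, ℤ)) • baseCoset N = baseCoset N := by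
  show (((γ : SL(2, ℤ)) * 1 : SL(2, ℤ)) : Cosets N) = _
  rw [QuotientGroup.eq]
  simp

theorem twist_baseCoset (φ : H N K K) (γ : Gamma0 N) :
    (φ : Additive (Gamma0 N) →+ K) (Additive.ofMul (twist (γ : SL(2, ℤ)) (baseCoset N))) =
      (φ : Additive (Gamma0 N) →+ K) (Additive.ofMul γ) := by
  have hs : (baseCoset N).out ∈ Gamma0 N := by
    have h := QuotientGroup.eq.mp (QuotientGroup.out_eq' (baseCoset N))
    simpa using h
  have : twist (γ : SL(2, ℤ)) (baseCoset N) = ⟨_, hs⟩⁻¹ * γ * ⟨_, hs⟩ :=
    Subtype.ext (twist_eq_conj (Gamma0_smul_baseCoset γ))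
  rw [this, ofMul_mul, ofMul_mul, ofMul_inv, map_add, map_add, map_neg]
  abel

theorem exists_smul_baseCoset (x : Cosets N) : x.out • baseCoset N = x := by
  show ((x.out * 1 : SL(2, ℤ)) : Cosets N) = x
  rw [mul_one, QuotientGroup.out_eq']

theorem mem_ker_toPairs {p : H N K K × (Cosets N → K)} :
    toPairs p = 0 ↔ p.1 = 0 ∧ ∃ a : K, p.2 = fun _ => a := by
  constructor
  · intro h
    have h' := congrArg Subtype.val h
    have hS : ∀ x, cocycleAt N K S p x = 0 := fun x => congrFun (congrArg Prod.fst h') x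
    have hU : ∀ x, cocycleAt N K genU p x = 0 := fun x => congrFun (congrArg Prod.snd h') x
    have hall := (isCosetCocycle_cocycleAt p).eq_zero_of_S_of_genU hS hU
    have h1 : p.1 = 0 := by
      refine Subtype.ext (AddMonoidHom.ext fun γ => ?_)
      have := hall (γ.toMul : SL(2, ℤ)) (baseCoset N)
      rw [cocycleAt_apply, Gamma0_smul_baseCoset, add_sub_cancel_right, twist_baseCoset] at this
      exact this
    refine ⟨h1, p.2 (baseCoset N), funext fun x => ?_⟩
    have := hall x.out (baseCoset N)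
    rw [cocycleAt_apply, h1, exists_smul_baseCoset] at this
    exact sub_eq_zero.mp (by simpa using this)
  · rintro ⟨h1, a, h2⟩
    refine Subtype.ext (Prod.ext (funext fun x => ?_) (funext fun x => ?_)) <;>
      show cocycleAt N K _ p x = 0 <;> simp [cocycleAt_apply, h1, h2]

theorem toPairs_surjective : Function.Surjective (toPairs (N := N) (K := K)) := by
  rintro ⟨⟨α, β⟩, h⟩
  obtain ⟨hα, hβ, hT⟩ := mem_ker_sums_iff.mp h
  obtain ⟨c, hc, hcS, hcU, hc1⟩ := exists_cocycle hα hβ
  have hcT : ∀ x, c T x = β ((S : SL(2, ℤ)) • x) + α x := fun x => by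
    rw [T_eq, hc.neg hc1, hc, hcS, hcU]
  have hTn : ∀ (n : ℕ) (y : Cosets N), (T : SL(2, ℤ)) ^ n • y = y → c (T ^ n) y = 0 := by
    intro n y hy
    rw [hc.pow]
    simp only [hcT]
    exact sum_range_eq_zero_of_orbitSum hT hy
  have hTz : ∀ (n : ℤ) (y : Cosets N), (T : SL(2, ℤ)) ^ n • y = y → c (T ^ n) y = 0 := by
    intro n y hy
    rcases n.eq_nat_or_neg with ⟨m, rfl | rfl⟩
    · rw [zpow_natCast] at hy ⊢; exact hTn m y hy
    · rw [zpow_neg, zpow_natCast] at hy ⊢
      have hy' : (T : SL(2, ℤ)) ^ m • y = y := (inv_smul_eq_iff.mp hy).symm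
      rw [hc.inv, hy, hTn m y hy', neg_zero]
  let ψ : Additive (Gamma0 N) →+ K :=
    { toFun := fun γ => c (γ.toMul : SL(2, ℤ)) (baseCoset N)
      map_zero' := hc.one _
      map_add' := fun γ δ => by
        show c ((γ.toMul : SL(2, ℤ)) * (δ.toMul : SL(2, ℤ))) _ = _
        rw [hc, Gamma0_smul_baseCoset] }
  have hneg : ∀ (γ : Gamma0 N) (δ g : SL(2, ℤ)),
      ((γ : SL(2, ℤ)) = δ * g * δ⁻¹ ∨ (γ : SL(2, ℤ)) = -(δ * g * δ⁻¹)) →
      g • δ⁻¹ • baseCoset N = δ⁻¹ • baseCoset N ∧
        ψ (Additive.ofMul γ) = c g (δ⁻¹ • baseCoset N) := by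
    intro γ δ g e
    have hfix : (δ * g * δ⁻¹) • baseCoset N = baseCoset N := by
      rcases e with e | e
      · rw [← e]; exact Gamma0_smul_baseCoset γ
      · rw [← neg_smul_coset, ← e]; exact Gamma0_smul_baseCoset γ
    have hg : g • δ⁻¹ • baseCoset N = δ⁻¹ • baseCoset N := by
      rwa [mul_smul, mul_smul, ← eq_inv_smul_iff] at hfix
    refine ⟨hg, ?_⟩
    show c (γ : SL(2, ℤ)) _ = _
    rcases e with e | e
    · rw [e, hc.conj δ g _ hg]
    · rw [e, hc.neg hc1, hc.conj δ g _ hg]
  have hψ : ψ ∈ H N K K := by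
    refine ⟨fun γ hγ => ?_, fun γ hγ => ?_⟩
    · obtain ⟨δ, n, e⟩ := exists_conj_T_zpow_of_trace hγ
      obtain ⟨hg, e'⟩ := hneg γ δ _ e
      rw [e']; exact hTz n _ hg
    · obtain ⟨δ, g, hg', e⟩ := exists_conj_of_isOfFinOrder ((Gamma0 N).subtype.isOfFinOrder hγ)
      obtain ⟨hg, e'⟩ := hneg γ δ g e
      rw [e']
      set y := δ⁻¹ • baseCoset N
      have h3 : ∀ hy : genU • y = y, c genU y = 0 := fun hy => by
        have := sum_range_eq_zero_of_orbitSum hβ (x := y) (n := 1) (by rw [pow_one]; exact hy)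
        simpa [hcU] using this
      rcases hg' with rfl | rfl | rfl | rfl
      · exact hc.one y
      · have := sum_range_eq_zero_of_orbitSum hα (x := y) (n := 1) (by rw [pow_one]; exact hg)
        simpa [hcS] using this
      · exact h3 hg
      · have hy : genU • y = y := by
          conv_rhs => rw [← neg_one_smul_coset y, ← genU_pow_three, pow_succ', mul_smul, hg]
        rw [sq, hc, hy, h3 hy, add_zero]
  refine ⟨(⟨ψ, hψ⟩, fun x => c x.out (baseCoset N)), ?_⟩
  have main : ∀ g x, cocycleAt N K g (⟨ψ, hψ⟩, fun x => c x.out (baseCoset N)) x = c g x := by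
    intro g x
    rw [cocycleAt_apply]
    show c (((g • x).out⁻¹ * g * x.out : SL(2, ℤ))) (baseCoset N) + _ - _ = _
    have e1 := hc (g • x).out ((g • x).out⁻¹ * g * x.out) (baseCoset N)
    have e2 : ((g • x).out⁻¹ * g * x.out) • baseCoset N = baseCoset N :=
      Gamma0_smul_baseCoset (twist g x)
    rw [e2, show (g • x).out * ((g • x).out⁻¹ * g * x.out) = g * x.out by group, hc g,
      exists_smul_baseCoset] at e1
    linear_combination -e1
  refine Subtype.ext (Prod.ext (funext fun x => ?_) (funext fun x => ?_))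
  · exact (main S x).trans (hcS x)
  · exact (main genU x).trans (hcU x)

theorem finrank_ker_sums :
    Module.finrank K (LinearMap.ker (sums N K)) + Fintype.card (OrbitsOf (S : SL(2, ℤ)) (Cosets N)) +
        Fintype.card (OrbitsOf genU (Cosets N)) + Fintype.card (OrbitsOf (T : SL(2, ℤ)) (Cosets N)) =
      2 * Fintype.card (Cosets N) + 1 := by
  classical
  let OS := OrbitsOf (S : SL(2, ℤ)) (Cosets N)
  let OU := OrbitsOf genU (Cosets N)
  let OT := OrbitsOf (T : SL(2, ℤ)) (Cosets N)
  let sS : (OS → K) →ₗ[K] K := ∑ o, LinearMap.proj o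
  let sU : (OU → K) →ₗ[K] K := ∑ o, LinearMap.proj o
  let sT : (OT → K) →ₗ[K] K := ∑ o, LinearMap.proj o
  let ε : (OS → K) × (OU → K) × (OT → K) →ₗ[K] K :=
    sT.comp ((LinearMap.snd K _ _).comp (LinearMap.snd K _ _)) -
      sS.comp (LinearMap.fst K _ _) - sU.comp ((LinearMap.fst K _ _).comp (LinearMap.snd K _ _))
  have hε : ∀ u v w, ε (u, v, w) = ∑ o, w o - ∑ o, u o - ∑ o, v o := fun u v w => by
    simp [ε, sS, sU, sT]
  have hrange : LinearMap.range (sums N K) = LinearMap.ker ε := by
    refine le_antisymm ?_ ?_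
    · rintro _ ⟨⟨α, β⟩, rfl⟩
      show ε (_, _, _) = 0
      rw [hε]
      show ∑ o, orbitSum K _ _ o - ∑ o, orbitSum K _ _ o - ∑ o, orbitSum K _ _ o = 0
      rw [sum_orbitSum, sum_orbitSum, sum_orbitSum]
      simp only [LinearMap.add_apply, LinearMap.comp_apply, LinearMap.fst_apply,
        LinearMap.snd_apply, LinearMap.funLeft_apply, Pi.add_apply, Finset.sum_add_distrib]
      rw [show ∑ x : Cosets N, β ((S : SL(2, ℤ)) • x) = ∑ x, β x from
        Equiv.sum_comp (MulAction.toPerm (S : SL(2, ℤ))) β]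
      ring
    · let I : Submodule K (OT → K) := (LinearMap.range (sums N K)).comap
        ((LinearMap.inr K (OS → K) _).comp (LinearMap.inr K (OU → K) (OT → K)))
      let e : Cosets N → (OT → K) := fun x => Pi.single (toOrbit (T : SL(2, ℤ)) x) 1
      have hTinv : ∀ x, e ((T : SL(2, ℤ)) • x) = e x := fun x => by simp only [e, toOrbit_smul]
      have step : ∀ y, e ((S : SL(2, ℤ)) • y) - e ((S : SL(2, ℤ)) • genU • y) ∈ I := by
        intro y
        refine ⟨(0, Pi.single y 1 - Pi.single (genU • y) 1), ?_⟩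
        show (_, _, _) = ((0 : OS → K), (0 : OU → K), _)
        refine Prod.ext (map_zero (orbitSum K (S : SL(2, ℤ)))) (Prod.ext ?_ ?_)
        · show orbitSum K genU (Pi.single y 1 - Pi.single (genU • y) 1) = 0
          rw [map_sub, orbitSum_single, orbitSum_single, toOrbit_smul, sub_self]
        · show orbitSum K (T : SL(2, ℤ)) (((LinearMap.funLeft K K
            fun x : Cosets N => (S : SL(2, ℤ)) • x) (Pi.single y 1 - Pi.single (genU • y) 1)) + 0) = _
          have hsingle : ∀ z : Cosets N, (LinearMap.funLeft K K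
              fun x : Cosets N => (S : SL(2, ℤ)) • x) (Pi.single z 1) =
                Pi.single ((S : SL(2, ℤ)) • z) 1 := fun z => funext fun x => by
            simp only [LinearMap.funLeft_apply, Pi.single_apply]
            refine if_congr ?_ rfl rfl
            rw [← smul_left_cancel_iff (S : SL(2, ℤ)) (x := (S : SL(2, ℤ)) • x), ← mul_smul,
              ← sq, S_sq, neg_one_smul_coset]
          rw [add_zero, map_sub, map_sub, hsingle, hsingle, orbitSum_single, orbitSum_single]
          rfl
      have hall : ∀ g : SL(2, ℤ), ∀ x, e (g • x) - e x ∈ I := by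
        intro g
        have hg : g ∈ Subgroup.closure ({S, T} : Set SL(2, ℤ)) := by
          rw [SpecialLinearGroup.SL2Z_generators]; trivial
        induction hg using Subgroup.closure_induction with
        | mem y hy =>
          rcases hy with rfl | rfl
          · intro x
            set z := (T : SL(2, ℤ))⁻¹ • x with hz
            have hzx : (T : SL(2, ℤ)) • z = x := smul_inv_smul _ _
            have := I.neg_mem (step ((S : SL(2, ℤ)) • z))
            rw [neg_sub, ← T_smul_eq, hzx, show (S : SL(2, ℤ)) • (S : SL(2, ℤ)) • z = z by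
              rw [← mul_smul, ← sq, S_sq, neg_one_smul_coset]] at this
            rw [show e x = e z by rw [← hzx, hTinv]]
            exact this
          · intro x; rw [hTinv, sub_self]; exact zero_mem _
        | one => intro x; rw [one_smul, sub_self]; exact zero_mem _
        | mul y z _ _ hy hz =>
          intro x
          rw [mul_smul, ← sub_add_sub_cancel _ (e (z • x))]
          exact add_mem (hy _) (hz x)
        | inv y _ hy =>
          intro x
          have := I.neg_mem (hy (y⁻¹ • x))
          rwa [smul_inv_smul, neg_sub] at this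
      have hI : ∀ w : OT → K, ∑ o, w o = 0 → w ∈ I := by
        intro w hw
        have hdiff : ∀ o : OT, (Pi.single o 1 : OT → K) - e (baseCoset N) ∈ I := by
          intro o
          induction o using Quotient.inductionOn' with
          | h x =>
            have := hall x.out (baseCoset N)
            rwa [exists_smul_baseCoset] at this
        have : w = ∑ o, w o • ((Pi.single o 1 : OT → K) - e (baseCoset N)) := by
          simp only [smul_sub, Finset.sum_sub_distrib, ← Finset.sum_smul, hw, zero_smul, sub_zero]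
          conv_lhs => rw [← Finset.univ_sum_single w]
          exact Finset.sum_congr rfl fun o _ => by rw [← Pi.single_smul', smul_eq_mul, mul_one]
        rw [this]
        exact Submodule.sum_mem _ fun o _ => Submodule.smul_mem _ _ (hdiff o)
      rintro ⟨u, v, w⟩ h
      obtain ⟨α, hα⟩ := orbitSum_surjective (K := K) (X := Cosets N) (S : SL(2, ℤ)) u
      obtain ⟨β, hβ⟩ := orbitSum_surjective (K := K) (X := Cosets N) genU v
      obtain ⟨w₀, hw₀⟩ : ∃ w₀, sums N K (α, β) = (u, v, w₀) :=
        ⟨(sums N K (α, β)).2.2, Prod.ext hα (Prod.ext hβ rfl)⟩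
      have hmem : w - w₀ ∈ I := by
        refine hI _ ?_
        have h0 : ε (sums N K (α, β)) = 0 := by
          rw [hw₀, hε]
          have hw0 : ∑ o, w₀ o = ∑ o, u o + ∑ o, v o := by
            have e3 : w₀ = (sums N K (α, β)).2.2 := by rw [hw₀]
            rw [e3]
            show ∑ o, orbitSum K (T : SL(2, ℤ)) _ o = _
            rw [sum_orbitSum, ← hα, ← hβ, sum_orbitSum, sum_orbitSum]
            simp only [LinearMap.add_apply, LinearMap.comp_apply, LinearMap.fst_apply,
              LinearMap.snd_apply, LinearMap.funLeft_apply, Pi.add_apply, Finset.sum_add_distrib]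
            rw [show ∑ x : Cosets N, β ((S : SL(2, ℤ)) • x) = ∑ x, β x from
              Equiv.sum_comp (MulAction.toPerm (S : SL(2, ℤ))) β]
            ring
          rw [hw0]; ring
        rw [LinearMap.mem_ker, hε] at h
        rw [hw₀, hε] at h0
        simp only [Pi.sub_apply, Finset.sum_sub_distrib]
        linear_combination h - h0
      obtain ⟨q, hq⟩ := hmem
      refine ⟨(α, β) + q, ?_⟩
      rw [map_add, hw₀, hq]
      simp
  have hεsurj : LinearMap.range ε = ⊤ := by
    rw [LinearMap.range_eq_top]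
    intro a
    refine ⟨(0, 0, Pi.single (toOrbit (T : SL(2, ℤ)) (baseCoset N)) a), ?_⟩
    simp [hε]
  have h1 := LinearMap.finrank_range_add_finrank_ker ε
  have h2 := LinearMap.finrank_range_add_finrank_ker (sums N K)
  rw [hεsurj, finrank_top, Module.finrank_self] at h1
  rw [hrange] at h2
  simp only [Module.finrank_prod, Module.finrank_fintype_fun_eq_card] at h1 h2
  simp only [OS, OU, OT] at h1 h2 ⊢
  omega

instance finiteDimensional_H_field : FiniteDimensional K (H N K K) :=
  Module.Finite.of_injective ((toPairs (N := N) (K := K)).comp (LinearMap.inl K _ _)) <| by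
    rw [← LinearMap.ker_eq_bot, LinearMap.ker_eq_bot']
    intro φ hφ
    exact (mem_ker_toPairs.mp hφ).1

/-- `dim H N K K = 2g` over every field. -/
theorem finrank_H_field :
    (Module.finrank K (H N K K) : ℚ) = 2 * ModularCurve.genusFormula N := by
  classical
  have hker : LinearMap.ker (toPairs (N := N) (K := K)) =
      K ∙ ((0, fun _ => 1) : H N K K × (Cosets N → K)) := by
    ext p
    rw [LinearMap.mem_ker, mem_ker_toPairs, Submodule.mem_span_singleton]
    constructor
    · rintro ⟨h1, a, h2⟩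
      exact ⟨a, Prod.ext (by simp [h1]) (funext fun x => by simp [h2])⟩
    · rintro ⟨a, rfl⟩
      exact ⟨by simp, a, funext fun x => by simp⟩
  have h1 := LinearMap.finrank_range_add_finrank_ker (toPairs (N := N) (K := K))
  rw [LinearMap.range_eq_top.mpr toPairs_surjective, finrank_top, hker, finrank_span_singleton
    (fun h => one_ne_zero (congrFun (congrArg Prod.snd h) (baseCoset N))),
    Module.finrank_prod, Module.finrank_fintype_fun_eq_card] at h1
  have h2 := finrank_ker_sums (N := N) (K := K)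
  have hS := card_orbitsOf_prime (g := (S : SL(2, ℤ))) (X := Cosets N) Nat.prime_two
    fun x => by rw [S_sq, neg_one_smul_coset]
  have hU := card_orbitsOf_prime (g := genU) (X := Cosets N) Nat.prime_three
    fun x => by rw [genU_pow_three, neg_one_smul_coset]
  have hX : Nat.card (Cosets N) = ModularCurve.dedekindPsi N :=
    FLTAgent.ModularCosets.index_Gamma0 (N := N)
  have hfU : Nat.card {x : Cosets N // genU • x = x} = ModularCurve.nuThree N := by
    rw [← FLTAgent.ModularPlaces.card_fixed_ST (N := N)]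
    refine Nat.card_congr ((MulAction.toPerm (S : SL(2, ℤ))).subtypeEquiv fun x => ?_)
    show genU • x = x ↔ (S * T) • (S : SL(2, ℤ)) • x = (S : SL(2, ℤ)) • x
    rw [← mul_smul, show S * T * S = S * genU from mul_assoc _ _ _, mul_smul,
      smul_left_cancel_iff]
  rw [hX, FLTAgent.ModularPlaces.card_fixed_S (N := N)] at hS
  rw [hX, hfU] at hU
  have hT : Fintype.card (OrbitsOf (T : SL(2, ℤ)) (Cosets N)) = ModularCurve.cuspCount N := by
    rw [← Nat.card_eq_fintype_card]; exact FLTAgent.ModularPlaces.card_orbits_T (N := N)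
  rw [← Nat.card_eq_fintype_card (α := Cosets N), hX] at h1 h2
  rw [hT, ← Nat.card_eq_fintype_card (α := OrbitsOf (S : SL(2, ℤ)) (Cosets N)),
    ← Nat.card_eq_fintype_card (α := OrbitsOf genU (Cosets N))] at h2
  rw [ModularCurve.genusFormula]
  have h1' := congrArg (Nat.cast (R := ℚ)) h1
  have h2' := congrArg (Nat.cast (R := ℚ)) h2
  have hS' := congrArg (Nat.cast (R := ℚ)) hS
  have hU' := congrArg (Nat.cast (R := ℚ)) hU
  push_cast at h1' h2' hS' hU'
  linarith

end Field

end FLTAgent.Period
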