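import Fermat.Agent.Period.Basic
import Fermat.Agent.Period.Cocycle
import Fermat.Prelude.Def_ModularCurve_GenusNumerics

/-!
# `Period.H N R A` is free of rank twice the genus

The universal group `Hom1 N` receiving the characters in `H` is free (a torsion part would make
the dimension mod `p` of `Cocycle.lean` too large); a basis gives elements `gen N i` of `Γ₀(N)`
with `evalEquiv : H N R A ≃ A ^ rankH N`. Consequences: `basisH`, `finrank_H`, `rankH_eq`
(`rankH N = 2 g`), the base change isomorphism `baseChange` and `mapCoeff_surjective`.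
-/

set_option autoImplicit false

open CongruenceSubgroup ModularCurve
open scoped MatrixGroups TensorProduct

noncomputable section

namespace FLTAgent.Period

/-- The rank of the period lattice. -/
def rankH (N : ℕ) : ℕ := Module.finrank ℤ (H N ℤ ℤ)

variable (N : ℕ) [NeZero N]

/-- The subgroup of relations defining `Hom1`. -/
def killed : AddSubgroup (Additive (Abelianization (Gamma0 N))) :=
  AddSubgroup.closure ((fun γ : Gamma0 N => Additive.ofMul (Abelianization.of γ)) ''
    {γ | ((γ : SL(2, ℤ)) : Matrix (Fin 2) (Fin 2) ℤ).trace ^ 2 = 4 ∨ IsOfFinOrder γ})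

/-- The universal group receiving an element of `H`: the homology of `X₀(N)`. -/
abbrev Hom1 : Type := Additive (Abelianization (Gamma0 N)) ⧸ killed N

/-- The universal homomorphism. -/
def toHom1 : Additive (Gamma0 N) →+ Hom1 N :=
  (QuotientAddGroup.mk' (killed N)).comp (MonoidHom.toAdditive Abelianization.of)

variable {N}

theorem toHom1_surjective : Function.Surjective (toHom1 N) := by
  intro m
  obtain ⟨x, rfl⟩ := QuotientAddGroup.mk'_surjective (killed N) m
  obtain ⟨γ, rfl⟩ := QuotientGroup.mk_surjective (x.toMul : Abelianization (Gamma0 N))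
  exact ⟨Additive.ofMul γ, rfl⟩

theorem toHom1_eq_zero {γ : Gamma0 N}
    (h : ((γ : SL(2, ℤ)) : Matrix (Fin 2) (Fin 2) ℤ).trace ^ 2 = 4 ∨ IsOfFinOrder γ) :
    toHom1 N (Additive.ofMul γ) = 0 :=
  (QuotientAddGroup.eq_zero_iff _).mpr (AddSubgroup.subset_closure ⟨γ, h, rfl⟩)

theorem exists_factor {R A : Type*} [Semiring R] [AddCommGroup A] [Module R A] (φ : H N R A) :
    ∃ f : Hom1 N →+ A, ∀ γ, f (toHom1 N γ) = (φ : Additive (Gamma0 N) →+ A) γ := by
  let g : Gamma0 N →* Multiplicative A :=
    { toFun := fun γ => Multiplicative.ofAdd ((φ : Additive (Gamma0 N) →+ A) (Additive.ofMul γ))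
      map_one' := by rw [ofMul_one, map_zero]; rfl
      map_mul' := fun x y => by rw [ofMul_mul, map_add]; rfl }
  let g' : Additive (Abelianization (Gamma0 N)) →+ A :=
    { toFun := fun x => Multiplicative.toAdd (Abelianization.lift g x.toMul)
      map_zero' := by rw [toMul_zero, map_one]; rfl
      map_add' := fun x y => by rw [toMul_add, map_mul]; rfl }
  have hg : ∀ γ : Gamma0 N, g' (Additive.ofMul (Abelianization.of γ)) =
      (φ : Additive (Gamma0 N) →+ A) (Additive.ofMul γ) := fun γ => by
    show Multiplicative.toAdd (Abelianization.lift g (Abelianization.of γ)) = _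
    rw [Abelianization.lift_apply_of]; rfl
  refine ⟨QuotientAddGroup.lift _ g' ?_, fun γ => hg γ.toMul⟩
  rw [killed, AddSubgroup.closure_le]
  rintro _ ⟨γ, h | h, rfl⟩
  · exact (hg γ).trans (H_parabolic φ h)
  · exact (hg γ).trans (H_finOrder φ h)

/-- A homomorphism out of `Hom1` gives an element of `H`. -/
def ofHom1 (R : Type*) {A : Type*} [Semiring R] [AddCommGroup A] [Module R A] (f : Hom1 N →+ A) :
    H N R A :=
  ⟨f.comp (toHom1 N), ⟨fun γ hγ => by simp [toHom1_eq_zero (Or.inl hγ)],
    fun γ hγ => by simp [toHom1_eq_zero (Or.inr hγ)]⟩⟩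

theorem ofHom1_apply (R : Type*) {A : Type*} [Semiring R] [AddCommGroup A] [Module R A]
    (f : Hom1 N →+ A) (γ : Additive (Gamma0 N)) :
    (ofHom1 R f : Additive (Gamma0 N) →+ A) γ = f (toHom1 N γ) := rfl

theorem fg_Hom1 : AddGroup.FG (Hom1 N) := by
  have : Group.FG SL(2, ℤ) :=
    Group.fg_iff.mpr ⟨_, SpecialLinearGroup.SL2Z_generators, Set.toFinite _⟩
  have : Group.FG (Gamma0 N) := Subgroup.fg_of_index_ne_zero _
  exact AddGroup.fg_of_surjective (f := toHom1 N) toHom1_surjective

section Basis

open scoped DirectSum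

private theorem exists_addEquiv_finsupp :
    ∃ n : ℕ, Nonempty (Hom1 N ≃+ (Fin n →₀ ℤ)) := by
  have := fg_Hom1 (N := N)
  obtain ⟨n, ι, hι, p, hp, e, ⟨f⟩⟩ := AddCommGroup.equiv_free_prod_directSum_zmod (Hom1 N)
  classical
  have hnz : ∀ i, NeZero (p i ^ e i) := fun i => ⟨pow_ne_zero _ (hp i).ne_zero⟩
  choose γ hγ using fun j : Fin n => toHom1_surjective (N := N) (f.symm (Finsupp.single j 1, 0))
  by_cases he : ∀ i, e i = 0
  · have : ∀ i, Subsingleton (ZMod (p i ^ e i)) := fun i =>
      (ZMod.subsingleton_iff).mpr (by rw [he i, pow_zero])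
    refine ⟨n, ⟨f.trans ?_⟩⟩
    exact
      { toFun := Prod.fst
        invFun := fun x => (x, 0)
        left_inv := fun x => Prod.ext rfl (Subsingleton.elim _ _)
        right_inv := fun _ => rfl
        map_add' := fun _ _ => rfl }
  · exfalso
    push Not at he
    obtain ⟨i, hi⟩ := he
    have := Fact.mk (hp i)
    let χ : (⨁ i, ZMod (p i ^ e i)) →+ ZMod (p i) :=
      (ZMod.castHom (dvd_pow_self (p i) hi) (ZMod (p i))).toAddMonoidHom.comp
        (DirectSum.toModule ℤ ι (ZMod (p i ^ e i)) fun j =>
          if h : j = i then h ▸ LinearMap.id else 0).toAddMonoidHom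
    have hχ : χ (DirectSum.of _ i 1) = 1 := by
      simp only [χ, AddMonoidHom.comp_apply]
      rw [← DirectSum.lof_eq_of ℤ]
      simp
      exact map_one (ZMod.castHom (dvd_pow_self (p i) hi) (ZMod (p i)))
    let toF : ((Fin n → ZMod (p i)) × ZMod (p i)) → (Hom1 N →+ ZMod (p i)) := fun at' =>
      ((Finsupp.liftAddHom fun j => zmultiplesHom (ZMod (p i)) (at'.1 j)).comp
          (AddMonoidHom.fst _ _) +
        ((AddMonoidHom.mulRight at'.2).comp χ).comp (AddMonoidHom.snd _ _)).comp f.toAddMonoidHom
    have toF_apply : ∀ at' m, toF at' m = ((f m).1.sum fun j k => k • at'.1 j) +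
        χ (f m).2 * at'.2 := fun _ _ => rfl
    let J : ((Fin n → ZMod (p i)) × ZMod (p i)) →ₗ[ZMod (p i)] H N (ZMod (p i)) (ZMod (p i)) :=
      { toFun := fun at' => ofHom1 _ (toF at')
        map_add' := fun x y => Subtype.ext (AddMonoidHom.ext fun γ => by
          simp only [ofHom1_apply, Submodule.coe_add, AddMonoidHom.add_apply, toF_apply,
            Prod.fst_add, Prod.snd_add, Pi.add_apply, smul_add, Finsupp.sum_add, mul_add]
          abel)
        map_smul' := fun c x => Subtype.ext (AddMonoidHom.ext fun γ => by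
          simp only [ofHom1_apply, SetLike.val_smul, AddMonoidHom.smul_apply, toF_apply,
            Prod.smul_fst, Prod.smul_snd, Pi.smul_apply, smul_eq_mul, RingHom.id_apply,
            zsmul_eq_mul, Finsupp.sum, mul_add, Finset.mul_sum]
          congr 1
          · exact Finset.sum_congr rfl fun j _ => by ring
          · ring) }
    have hJ : Function.Injective J := by
      rw [← LinearMap.ker_eq_bot, LinearMap.ker_eq_bot']
      rintro ⟨a, t⟩ h
      have h0 : ∀ m, toF (a, t) m = 0 := fun m => by
        obtain ⟨γ, rfl⟩ := toHom1_surjective (N := N) m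
        exact DFunLike.congr_fun (congrArg Subtype.val h) γ
      refine Prod.ext (funext fun j => ?_) ?_
      · have := h0 (f.symm (Finsupp.single j 1, 0))
        rw [toF_apply, AddEquiv.apply_symm_apply, map_zero, zero_mul, add_zero,
          Finsupp.sum_single_index (h := fun j k => k • a j) (zero_smul _ _), one_smul] at this
        exact this
      · have := h0 (f.symm (0, DirectSum.of _ i 1))
        rw [toF_apply, AddEquiv.apply_symm_apply, hχ, one_mul, Finsupp.sum_zero_index,
          zero_add] at this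
        exact this
    let E : H N ℚ ℚ →ₗ[ℚ] (Fin n → ℚ) :=
      { toFun := fun φ j => (φ : Additive (Gamma0 N) →+ ℚ) (γ j)
        map_add' := fun _ _ => rfl
        map_smul' := fun _ _ => rfl }
    have hE : Function.Injective E := by
      rw [← LinearMap.ker_eq_bot, LinearMap.ker_eq_bot']
      intro φ hφ
      obtain ⟨g, hg⟩ := exists_factor φ
      refine Subtype.ext (AddMonoidHom.ext fun x => ?_)
      rw [← hg]
      obtain ⟨⟨u, v⟩, huv⟩ := f.symm.surjective (toHom1 N x)
      have hu : g (f.symm (u, 0)) = 0 := by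
        let gu : (Fin n →₀ ℤ) →+ ℚ :=
          (g.comp f.symm.toAddMonoidHom).comp (AddMonoidHom.inl _ _)
        have : gu = 0 := Finsupp.addHom_ext fun j k => by
          show g (f.symm (Finsupp.single j k, 0)) = 0
          rw [show ((Finsupp.single j k, 0) : (Fin n →₀ ℤ) × ⨁ i, ZMod (p i ^ e i)) =
            k • (Finsupp.single j 1, 0) from Prod.ext (by simp) (smul_zero k).symm, map_zsmul,
            map_zsmul, ← hγ, hg, show (φ : Additive (Gamma0 N) →+ ℚ) (γ j) = 0 from congrFun hφ j,
            smul_zero]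
        exact DFunLike.congr_fun this u
      have hv : g (f.symm (0, v)) = 0 := by
        let gv : (⨁ i, ZMod (p i ^ e i)) →+ ℚ :=
          (g.comp f.symm.toAddMonoidHom).comp (AddMonoidHom.inr _ _)
        have : gv = 0 := DirectSum.addHom_ext fun j c => by
          have hfin : (p j ^ e j : ℕ) • c = 0 := by
            rw [nsmul_eq_mul, ZMod.natCast_self, zero_mul]
          have := congrArg (gv ∘ DirectSum.of (fun i => ZMod (p i ^ e i)) j) hfin
          simp only [Function.comp_apply, map_nsmul, map_zero] at this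
          exact (smul_eq_zero_iff_right (pow_ne_zero _ (hp j).ne_zero)).mp this
        exact DFunLike.congr_fun this v
      show g (toHom1 N x) = 0
      rw [← huv, show ((u, v) : (Fin n →₀ ℤ) × ⨁ i, ZMod (p i ^ e i)) = (u, 0) + (0, v) by simp,
        map_add, map_add, hu, hv, add_zero]
    have h1 := LinearMap.finrank_le_finrank_of_injective hJ
    have h2 := LinearMap.finrank_le_finrank_of_injective hE
    have h3 : Module.finrank (ZMod (p i)) (H N (ZMod (p i)) (ZMod (p i))) =
        Module.finrank ℚ (H N ℚ ℚ) := by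
      exact_mod_cast (finrank_H_field (N := N) (K := ZMod (p i))).trans
        (finrank_H_field (N := N) (K := ℚ)).symm
    rw [Module.finrank_prod, Module.finrank_fintype_fun_eq_card, Module.finrank_self,
      Fintype.card_fin] at h1
    rw [Module.finrank_fintype_fun_eq_card, Fintype.card_fin] at h2
    omega

/-- Evaluation at elements lifting a basis of `Hom1`, with inverse given by the coordinates. -/
def evalAux {n : ℕ} (b : Module.Basis (Fin n) ℤ (Hom1 N)) (γ : Fin n → Additive (Gamma0 N))
    (hγ : ∀ i, toHom1 N (γ i) = b i) (R A : Type*) [Semiring R] [AddCommGroup A] [Module R A] :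
    H N R A ≃ₗ[R] (Fin n → A) where
  toFun φ i := (φ : Additive (Gamma0 N) →+ A) (γ i)
  map_add' _ _ := rfl
  map_smul' _ _ := rfl
  invFun a := ofHom1 R (∑ i, (zmultiplesHom A (a i)).comp (b.coord i).toAddMonoidHom)
  left_inv φ := by
    obtain ⟨f, hf⟩ := exists_factor φ
    refine Subtype.ext (AddMonoidHom.ext fun x => ?_)
    rw [ofHom1_apply, AddMonoidHom.finsetSum_apply, ← hf]
    conv_rhs => rw [← b.sum_repr (toHom1 N x), map_sum]
    refine Finset.sum_congr rfl fun i _ => ?_
    rw [map_zsmul, ← hγ, hf]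
    rfl
  right_inv a := by
    funext i
    show (ofHom1 (N := N) (A := A) R _ : Additive (Gamma0 N) →+ A) (γ i) = a i
    rw [ofHom1_apply, AddMonoidHom.finsetSum_apply, hγ, Finset.sum_eq_single i]
    · simp
    · intro j _ hj; simp [hj]
    · simp

end Basis

theorem nonempty_basis_Hom1 : Nonempty (Module.Basis (Fin (rankH N)) ℤ (Hom1 N)) := by
  obtain ⟨n, ⟨f⟩⟩ := exists_addEquiv_finsupp (N := N)
  let b : Module.Basis (Fin n) ℤ (Hom1 N) := Module.Basis.ofRepr f.toIntLinearEquiv
  choose γ hγ using fun i => toHom1_surjective (N := N) (b i)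
  have : rankH N = n := by
    rw [rankH, LinearEquiv.finrank_eq (evalAux b γ hγ ℤ ℤ), Module.finrank_fintype_fun_eq_card,
      Fintype.card_fin]
  exact ⟨this ▸ b⟩

variable (N)

/-- A basis of `Hom1 N`. -/
def basisHom1 : Module.Basis (Fin (rankH N)) ℤ (Hom1 N) := (nonempty_basis_Hom1 (N := N)).some

/-- Elements of `Γ₀(N)` on which every element of `H N R A` is freely determined. -/
def gen : Fin (rankH N) → Gamma0 N :=
  fun i => (toHom1_surjective (basisHom1 N i)).choose.toMul

theorem toHom1_gen (i : Fin (rankH N)) :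
    toHom1 N (Additive.ofMul (gen N i)) = basisHom1 N i :=
  (toHom1_surjective (basisHom1 N i)).choose_spec

/-- The dual system of `gen`. -/
def coordH : Fin (rankH N) → H N ℤ ℤ :=
  fun i => ofHom1 ℤ ((basisHom1 N).coord i).toAddMonoidHom

variable {N}

theorem coordH_gen (i j : Fin (rankH N)) :
    (coordH N i : Additive (Gamma0 N) →+ ℤ) (Additive.ofMul (gen N j)) =
      if i = j then 1 else 0 := by
  rw [coordH, ofHom1_apply, toHom1_gen]
  simp [Finsupp.single_apply, eq_comm]

variable (N)

/-- Evaluation at `gen`. -/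
def evalEquiv (R A : Type*) [Semiring R] [AddCommGroup A] [Module R A] :
    H N R A ≃ₗ[R] (Fin (rankH N) → A) :=
  evalAux (basisHom1 N) (fun i => Additive.ofMul (gen N i)) (toHom1_gen N) R A

variable {N}

theorem evalEquiv_apply {R A : Type*} [Semiring R] [AddCommGroup A] [Module R A] (φ : H N R A)
    (i : Fin (rankH N)) :
    evalEquiv N R A φ i = (φ : Additive (Gamma0 N) →+ A) (Additive.ofMul (gen N i)) := rfl

/-- Every element of `H` is determined by its values at `gen`. -/
theorem H_decomp {R A : Type*} [Semiring R] [AddCommGroup A] [Module R A] (φ : H N R A)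
    (γ : Additive (Gamma0 N)) :
    (φ : Additive (Gamma0 N) →+ A) γ =
      ∑ i, (coordH N i : Additive (Gamma0 N) →+ ℤ) γ •
        (φ : Additive (Gamma0 N) →+ A) (Additive.ofMul (gen N i)) := by
  conv_lhs => rw [← (evalEquiv N R A).symm_apply_apply φ]
  show (ofHom1 (N := N) (A := A) R _ : Additive (Gamma0 N) →+ A) γ = _
  rw [ofHom1_apply, AddMonoidHom.finsetSum_apply]
  rfl

variable (N)

/-- The basis of `H N R R` dual to `gen`. -/
def basisH (R : Type*) [CommRing R] : Module.Basis (Fin (rankH N)) R (H N R R) :=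
  (Pi.basisFun R (Fin (rankH N))).map (evalEquiv N R R).symm

instance free_H (R : Type*) [CommRing R] : Module.Free R (H N R R) :=
  Module.Free.of_basis (basisH N R)

instance finite_H (R : Type*) [CommRing R] : Module.Finite R (H N R R) :=
  Module.Finite.of_basis (basisH N R)

theorem finrank_H (R : Type*) [CommRing R] [Nontrivial R] :
    Module.finrank R (H N R R) = rankH N := by
  rw [Module.finrank_eq_card_basis (basisH N R), Fintype.card_fin]

/-- The rank of the lattice is twice the genus. -/
theorem rankH_eq : (rankH N : ℚ) = 2 * genusFormula N := by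
  rw [← finrank_H N ℚ]; exact finrank_H_field (N := N) (K := ℚ)

/-- `H N R R` has rank twice the genus over every nontrivial commutative ring. -/
theorem finrank_H_genus (R : Type*) [CommRing R] [Nontrivial R] :
    (Module.finrank R (H N R R) : ℚ) = 2 * genusFormula N := by
  rw [finrank_H, rankH_eq]

/-- `H N ℤ ℤ → H N R R`. -/
def castH (R : Type*) [Ring R] : H N ℤ ℤ →+ H N R R where
  toFun φ := ⟨(Int.castAddHom R).comp (φ : Additive (Gamma0 N) →+ ℤ),
    ⟨fun γ hγ => by simp [H_parabolic φ hγ], fun γ hγ => by simp [H_finOrder φ hγ]⟩⟩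
  map_zero' := Subtype.ext (AddMonoidHom.ext fun γ => by simp)
  map_add' φ ψ := Subtype.ext (AddMonoidHom.ext fun γ => by simp)

@[simp] theorem castH_apply (R : Type*) [Ring R] (φ : H N ℤ ℤ) (γ : Additive (Gamma0 N)) :
    (castH N R φ : Additive (Gamma0 N) →+ R) γ = ((φ : Additive (Gamma0 N) →+ ℤ) γ : R) := rfl

/-- `R ⊗ H N ℤ ℤ ≃ H N R R`. -/
def baseChange (R : Type*) [CommRing R] : R ⊗[ℤ] H N ℤ ℤ ≃ₗ[R] H N R R :=
  ((Algebra.TensorProduct.basis R (basisH N ℤ)).equivFun).trans (evalEquiv N R R).symm

variable {N}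

theorem baseChange_tmul (R : Type*) [CommRing R] (r : R) (φ : H N ℤ ℤ) :
    baseChange N R (r ⊗ₜ φ) = r • castH N R φ := by
  rw [baseChange, LinearEquiv.trans_apply, LinearEquiv.symm_apply_eq]
  funext i
  rw [map_smul, Pi.smul_apply, evalEquiv_apply, castH_apply, Module.Basis.equivFun_apply,
    Algebra.TensorProduct.basis_repr_tmul]
  simp [basisH, evalEquiv_apply]

theorem mapCoeff_surjective {R A B : Type*} [Semiring R] [AddCommGroup A] [Module R A]
    [AddCommGroup B] [Module R B] (f : A →ₗ[R] B) (hf : Function.Surjective f) :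
    Function.Surjective (mapCoeff (N := N) f) := by
  intro ψ
  choose a ha using fun i => hf (evalEquiv N R B ψ i)
  refine ⟨(evalEquiv N R A).symm a, (evalEquiv N R B).injective (funext fun i => ?_)⟩
  rw [evalEquiv_apply, mapCoeff_apply, ← evalEquiv_apply, LinearEquiv.apply_symm_apply, ha]

end FLTAgent.Period
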