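import Fermat.Agent.Period.Primitive

/-!
# A maximum principle on the modular curve

`eq_of_re_invariant`: a holomorphic primitive on `ℍ` whose real part is `Γ₀(N)`-invariant, with
period `N` and a limit at every cusp, is constant. Proof: in the coordinates at finitely many
cusps `exp (F)` is dominated by its values on compact discs, so its modulus attains a maximum and
the maximum modulus principle applies.
-/

set_option autoImplicit false

open CongruenceSubgroup UpperHalfPlane Filter Topology Matrix.SpecialLinearGroup Metric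
open scoped MatrixGroups Real

noncomputable section

namespace FLTAgent.Period

variable {N : ℕ} [NeZero N]

/-- A primitive with invariant real part and limits at all cusps is constant. -/
theorem eq_of_re_invariant {F f : ℍ → ℂ}
    (hF : ∀ τ : ℍ, HasDerivAt (F ∘ ofComplex) (f τ) (τ : ℂ))
    (hinv : ∀ γ ∈ Gamma0 N, ∀ τ : ℍ, (F (γ • τ)).re = (F τ).re)
    (hper : ∀ (δ : SL(2, ℤ)) (w : ℍ), F (δ • ((N : ℝ) +ᵥ w)) = F (δ • w))
    (hlim : ∀ δ : SL(2, ℤ), ∃ L : ℂ, Tendsto (fun w : ℍ => F (δ • w)) atImInfty (𝓝 L))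
    (a b : ℍ) : F a = F b := by
  have : Fintype (SL(2, ℤ) ⧸ Gamma0 N) := Subgroup.fintypeQuotientOfFiniteIndex
  have hN : (0 : ℝ) < N := Nat.cast_pos.mpr (NeZero.pos N)
  -- the functions at the cusps
  let δ : SL(2, ℤ) ⧸ Gamma0 N → SL(2, ℤ) := fun x => x.out⁻¹
  let G : SL(2, ℤ) ⧸ Gamma0 N → ℍ → ℂ := fun x w => Complex.exp (F (δ x • w))
  have hGper : ∀ x, Function.Periodic (G x ∘ ofComplex) ((N : ℝ) : ℂ) := by
    intro x t
    by_cases ht : 0 < t.im
    · have ht' : 0 < (t + ((N : ℝ) : ℂ)).im := by simpa using ht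
      simp only [Function.comp_apply, G]
      rw [ofComplex_apply_of_im_pos ht, ofComplex_apply_of_im_pos ht', ← hper (δ x) ⟨t, ht⟩]
      congr 3
      ext
      simp [add_comm]
    · have ht' : (t + ((N : ℝ) : ℂ)).im ≤ 0 := by simpa using not_lt.mp ht
      simp only [Function.comp_apply, G]
      rw [ofComplex_apply_of_im_nonpos (not_lt.mp ht), ofComplex_apply_of_im_nonpos ht']
  have hGderiv : ∀ x (τ : ℍ), DifferentiableAt ℂ (G x ∘ ofComplex) (τ : ℂ) := fun x τ =>
    (hasDerivAt_comp_SL hF (δ x) τ).cexp.differentiableAt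
  have hGhol : ∀ x, MDifferentiable (modelWithCornersSelf ℂ ℂ) (modelWithCornersSelf ℂ ℂ) (G x) :=
    fun x τ => UpperHalfPlane.mdifferentiableAt_iff.mpr (hGderiv x τ)
  have hGbdd : ∀ x, IsBoundedAtImInfty (G x) := by
    intro x
    obtain ⟨L, hL⟩ := hlim (δ x)
    exact Tendsto.isBigO_one ℝ ((Complex.continuous_exp.tendsto L).comp hL)
  let Φ : SL(2, ℤ) ⧸ Gamma0 N → ℂ → ℂ := fun x => UpperHalfPlane.cuspFunction (N : ℝ) (G x)
  have hΦ : ∀ x, DifferentiableOn ℂ (Φ x) (ball 0 1) := fun x =>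
    differentiableOn_cuspFunction_ball hN (hGper x) (hGhol x) (hGbdd x)
  have hΦG : ∀ x (τ : ℍ), Φ x (Function.Periodic.qParam (N : ℝ) τ) = G x τ := fun x τ =>
    UpperHalfPlane.eq_cuspFunction τ hN.ne' (hGper x)
  set r : ℝ := Real.exp (-π / N) with hr
  have hr1 : r < 1 := by
    rw [hr, Real.exp_lt_one_iff, neg_div]
    exact neg_lt_zero.mpr (div_pos Real.pi_pos hN)
  have hr0 : 0 ≤ r := (Real.exp_pos _).le
  -- every value is dominated by a value in a compact disc at some cusp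
  have hdom : ∀ τ : ℍ, ∃ y, ∃ q ∈ closedBall (0 : ℂ) r,
      Real.exp (F τ).re = ‖Φ y q‖ := by
    intro τ
    obtain ⟨g, hg⟩ := ModularGroup.exists_one_half_le_im_smul τ
    let y : SL(2, ℤ) ⧸ Gamma0 N := (g : SL(2, ℤ))
    have hk : y.out⁻¹ * g ∈ Gamma0 N := QuotientGroup.eq.mp (QuotientGroup.out_eq' y)
    refine ⟨y, Function.Periodic.qParam (N : ℝ) (g • τ : ℍ), ?_, ?_⟩
    · rw [mem_closedBall_zero_iff, Function.Periodic.norm_qParam, hr, Real.exp_le_exp,
        div_le_div_iff_of_pos_right hN]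
      have : 1 / 2 ≤ ((g • τ : ℍ) : ℂ).im := hg
      nlinarith [Real.pi_pos]
    · rw [hΦG y (g • τ)]
      simp only [G, Complex.norm_exp, δ]
      rw [← hinv _ hk τ, mul_smul]
  -- choose the maximum
  have hmax : ∀ x, ∃ q ∈ closedBall (0 : ℂ) r, IsMaxOn (fun q => ‖Φ x q‖) (closedBall 0 r) q :=
    fun x => (isCompact_closedBall 0 r).exists_isMaxOn ⟨0, mem_closedBall_self hr0⟩
      ((hΦ x).continuousOn.mono (closedBall_subset_ball hr1)).norm
  choose q hq hqmax using hmax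
  have : Nonempty (SL(2, ℤ) ⧸ Gamma0 N) := ⟨((1 : SL(2, ℤ)) : SL(2, ℤ) ⧸ Gamma0 N)⟩
  obtain ⟨x₀, hx₀⟩ := Finite.exists_max fun x => ‖Φ x (q x)‖
  have hbound : ∀ τ : ℍ, Real.exp (F τ).re ≤ ‖Φ x₀ (q x₀)‖ := fun τ => by
    obtain ⟨y, p, hp, e⟩ := hdom τ
    exact e.le.trans ((hqmax y hp).trans (hx₀ y))
  have hmaxball : IsMaxOn (fun p => ‖Φ x₀ p‖) (ball 0 1) (q x₀) := by
    intro p hp
    rcases eq_or_ne p 0 with rfl | hp0
    · exact hqmax x₀ (mem_closedBall_self hr0)
    · have hp' := Function.Periodic.im_invQParam_pos_of_norm_lt_one hN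
        (mem_ball_zero_iff.mp hp) hp0
      have := hΦG x₀ ⟨_, hp'⟩
      rw [show ((⟨_, hp'⟩ : ℍ) : ℂ) = Function.Periodic.invQParam (N : ℝ) p from rfl,
        Function.Periodic.qParam_right_inv hN.ne' hp0] at this
      show ‖Φ x₀ p‖ ≤ ‖Φ x₀ (q x₀)‖
      rw [this]
      simp only [G, Complex.norm_exp]
      exact hbound _
  have hconst := Complex.eqOn_of_isPreconnected_of_isMaxOn_norm (convex_ball 0 1).isPreconnected
    isOpen_ball (hΦ x₀) (closedBall_subset_ball hr1 (hq x₀)) hmaxball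
  -- so the derivative of `F` vanishes
  have hGconst : ∀ τ : ℍ, G x₀ τ = Φ x₀ (q x₀) := fun τ => by
    rw [← hΦG x₀ τ]
    exact hconst (mem_ball_zero_iff.mpr (Function.Periodic.norm_qParam_lt_one hN τ.im_pos))
  have hzero : ∀ τ : ℍ, HasDerivAt ((fun w => F (δ x₀ • w)) ∘ ofComplex) 0 (τ : ℂ) := by
    intro τ
    have h1 := hasDerivAt_comp_SL hF (δ x₀) τ
    have h2 := h1.cexp
    have h3 : HasDerivAt (fun z => Complex.exp (((fun w => F (δ x₀ • w)) ∘ ofComplex) z)) 0
        (τ : ℂ) := (hasDerivAt_const (τ : ℂ) (Φ x₀ (q x₀))).congr_of_eventuallyEq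
      (Filter.Eventually.of_forall fun z => hGconst (ofComplex z))
    have h4 := h2.unique h3
    rwa [(mul_eq_zero.mp h4).resolve_left (Complex.exp_ne_zero _)] at h1
  have := eq_of_hasDerivAt_zero hzero ((δ x₀)⁻¹ • a) ((δ x₀)⁻¹ • b)
  simpa only [smul_inv_smul] using this

end FLTAgent.Period
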