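import Fermat.Agent.Period.Lattice
import Fermat.Agent.Period.MaxModulus
import Fermat.Prelude.Def_ModularCurve_PeriodHomPair

/-!
# Periods of weight two cusp forms (Eichler–Shimura)

`periodMap_eq_sub` computes periods from any primitive; periods lie in `H N ℂ ℂ`
(`periodMap_mem_H`). Injectivity: a form with purely imaginary periods is zero by the maximum
principle of `MaxModulus.lean`, whence `periodHomPair_injective`. So `2 dim S₂ ≤ rankH N`, and
`range_periodHomPair` gives the full parabolic homomorphisms once `dim S₂ = g` is known.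
-/

set_option autoImplicit false

open CongruenceSubgroup ModularCurve ModularCurve.Period UpperHalfPlane Filter Topology ComplexConjugate
open scoped MatrixGroups

noncomputable section

namespace FLTAgent.Period

variable {N : ℕ} [NeZero N]

theorem exists_hasEquivariantPrimitive (f : CuspForm (Gamma0 N) 2) :
    ∃ F : ℍ → ℂ, HasEquivariantPrimitive N f F := exists_primitive_hasEquivariantPrimitive

/-- The periods can be computed with any primitive. -/
theorem periodMap_eq_sub (f : CuspForm (Gamma0 N) 2) {F : ℍ → ℂ}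
    (hF : ∀ τ : ℍ, HasDerivAt (F ∘ ofComplex) (f τ) (τ : ℂ)) (γ : Gamma0 N) (z : ℍ) :
    periodMap N f (Additive.ofMul γ) = F ((γ : SL(2, ℤ)) • z) - F z := by
  obtain ⟨F₀, h₀⟩ := exists_hasEquivariantPrimitive f
  obtain ⟨F₁, h₁, e⟩ := periodMap_def N f h₀
  obtain ⟨c, hc⟩ := exists_eq_add_of_hasDerivAt h₁.1 hF
  rw [e, Period.IsEquivariantPrimitive.periodHom_apply,
    ← h₁.2.2.1.sub_eq_period γ z, hc, hc]
  ring

/-- The periods of a cusp form form an element of `H N ℂ ℂ`. -/
theorem periodMap_mem_H (f : CuspForm (Gamma0 N) 2) : periodMap N f ∈ H N ℂ ℂ := by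
  obtain ⟨F, hF⟩ := exists_hasEquivariantPrimitive f
  refine parabolicHoms_le_H fun γ hγ => ?_
  obtain ⟨δ, n, e⟩ := exists_conj_T_zpow_of_trace hγ
  exact sub_eq_zero_of_parabolic (fun z => (periodMap_eq_sub f hF.1 γ z).symm) e (hF.2.2.2 δ)

variable (N)

/-- The period map as a linear map. -/
def periodLinear : CuspForm (Gamma0 N) 2 →ₗ[ℂ] (Additive (Gamma0 N) →+ ℂ) where
  toFun := periodMap N
  map_add' f g := by
    obtain ⟨F, hF⟩ := exists_hasEquivariantPrimitive f
    obtain ⟨G, hG⟩ := exists_hasEquivariantPrimitive g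
    refine AddMonoidHom.ext fun γ => ?_
    show periodMap N (f + g) (Additive.ofMul γ.toMul) =
      periodMap N f (Additive.ofMul γ.toMul) + periodMap N g (Additive.ofMul γ.toMul)
    rw [periodMap_eq_sub (f + g) (F := F + G)
      (fun τ => by simpa using! (hF.1 τ).add (hG.1 τ)) _ UpperHalfPlane.I,
      periodMap_eq_sub f hF.1 _ UpperHalfPlane.I, periodMap_eq_sub g hG.1 _ UpperHalfPlane.I]
    simp only [Pi.add_apply]; ring
  map_smul' c f := by
    obtain ⟨F, hF⟩ := exists_hasEquivariantPrimitive f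
    refine AddMonoidHom.ext fun γ => ?_
    show periodMap N (c • f) (Additive.ofMul γ.toMul) =
      c * periodMap N f (Additive.ofMul γ.toMul)
    rw [periodMap_eq_sub (c • f) (F := fun z => c * F z)
      (fun τ => by simpa using! (hF.1 τ).const_mul c) _ UpperHalfPlane.I,
      periodMap_eq_sub f hF.1 _ UpperHalfPlane.I]
    ring

theorem existsPeriodMapLinear : ExistsPeriodMapLinear N := ⟨periodLinear N, fun _ => rfl⟩

variable {N}

theorem periodHomPair_apply (f g : CuspForm (Gamma0 N) 2) :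
    periodHomPair N (f, g) =
      (periodMap N f + charInvolution N ℂ ℂ (periodMap N f)) +
        (periodMap N g - charInvolution N ℂ ℂ (periodMap N g)) := by
  obtain ⟨pml, hpml, h⟩ := periodHomPair_def N (existsPeriodMapLinear N)
  rw [h]
  simp [hpml]

theorem periodHomPair_mem_H (p : CuspForm (Gamma0 N) 2 × CuspForm (Gamma0 N) 2) :
    periodHomPair N p ∈ H N ℂ ℂ := by
  obtain ⟨f, g⟩ := p
  rw [periodHomPair_apply]
  exact add_mem (add_mem (periodMap_mem_H f) (charInvolution_mem_H (periodMap_mem_H f)))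
    (sub_mem (periodMap_mem_H g) (charInvolution_mem_H (periodMap_mem_H g)))

theorem periodic_sub_eq_zero (f : CuspForm (Gamma0 N) 2) {F : ℍ → ℂ}
    (hF : ∀ τ : ℍ, HasDerivAt (F ∘ ofComplex) (f τ) (τ : ℂ)) (δ : SL(2, ℤ)) (w : ℍ) :
    F (δ • ((N : ℝ) +ᵥ w)) - F (δ • w) = 0 := by
  have hp : ((δ * ModularGroup.T ^ (N : ℤ) * δ⁻¹ : SL(2, ℤ)) :
      Matrix (Fin 2) (Fin 2) ℤ).trace ^ 2 = 4 := by
    rw [trace_conj, ModularGroup.coe_T_zpow, Matrix.trace_fin_two]; norm_num
  have e : periodMap N f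
      (Additive.ofMul (⟨_, ModSym.T_pow_conj_mem (N := N) δ⟩ : Gamma0 N)) = 0 :=
    (periodMap_mem_H f).1 _ hp
  rw [periodMap_eq_sub f hF _ (δ • w)] at e
  rw [show (δ * ModularGroup.T ^ (N : ℤ) * δ⁻¹) • δ • w = δ • ((N : ℝ) +ᵥ w) by
    rw [mul_smul, mul_smul, inv_smul_smul, modular_T_zpow_smul]; norm_num] at e
  exact e

/-- A form with purely imaginary periods is zero. -/
theorem eq_zero_of_re_periodMap_eq_zero {f : CuspForm (Gamma0 N) 2}
    (h : ∀ γ : Additive (Gamma0 N), (periodMap N f γ).re = 0) : f = 0 := by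
  obtain ⟨F, hF⟩ := exists_hasEquivariantPrimitive f
  have hconst := eq_of_re_invariant (N := N) hF.1 (fun γ hγ τ => ?_) (fun δ w => ?_) hF.2.2.2
  · ext τ
    show f τ = (0 : CuspForm (Gamma0 N) 2) τ
    have h0 : HasDerivAt (F ∘ ofComplex) 0 (τ : ℂ) :=
      (hasDerivAt_const (τ : ℂ) (F τ)).congr_of_eventuallyEq
        (Filter.Eventually.of_forall fun z => hconst (ofComplex z) τ)
    simpa using (hF.1 τ).unique h0
  · have e := h (Additive.ofMul ⟨γ, hγ⟩)
    rw [periodMap_eq_sub f hF.1 _ τ, Complex.sub_re, sub_eq_zero] at e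
    exact e
  · exact (sub_eq_zero.mp (periodic_sub_eq_zero f hF.1 δ w))

/-- A form with real periods is zero. -/
theorem eq_zero_of_im_periodMap_eq_zero {f : CuspForm (Gamma0 N) 2}
    (h : ∀ γ : Additive (Gamma0 N), (periodMap N f γ).im = 0) : f = 0 := by
  have := eq_zero_of_re_periodMap_eq_zero (f := Complex.I • f) fun γ => by
    show ((periodLinear N (Complex.I • f)) γ).re = 0
    rw [map_smul]
    show (Complex.I * periodMap N f γ).re = 0
    simp [h γ]
  exact (smul_eq_zero_iff_right Complex.I_ne_zero).mp this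

/-- A cusp form is determined by its periods. -/
theorem periodMap_injective : Function.Injective (periodMap N) := by
  intro f g hfg
  have h : periodLinear N (f - g) = 0 := by rw [map_sub]; exact sub_eq_zero.mpr hfg
  exact sub_eq_zero.mp (eq_zero_of_re_periodMap_eq_zero fun γ => by
    show ((periodLinear N (f - g)) γ).re = 0
    rw [h]; simp)

section Conj

/-- `τ ↦ -conj τ`. -/
private def reflect (τ : ℍ) : ℍ :=
  ⟨-conj (τ : ℂ), by simpa using τ.im_pos⟩

private theorem reflect_smul (γ : SL(2, ℤ)) (τ : ℍ) :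
    reflect (γ • τ) = jConjSL γ • reflect τ := by
  ext1
  show -conj ((γ • τ : ℍ) : ℂ) = _
  rw [coe_specialLinearGroup_apply, coe_specialLinearGroup_apply]
  show _ = ((algebraMap ℤ ℝ (jConjMat γ 0 0) : ℂ) * (-conj (τ : ℂ)) + _) / _
  simp only [jConjSL_coe, jConjMat_apply_zero_zero, jConjMat_apply_zero_one,
    jConjMat_apply_one_zero, jConjMat_apply_one_one, eq_intCast, Int.cast_neg, map_div₀, map_add,
    map_mul, map_intCast, Complex.ofReal_intCast, Complex.ofReal_neg]
  show -_ = (_ * (-conj (τ : ℂ)) + _) / (_ * (-conj (τ : ℂ)) + _)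
  rw [← neg_div]
  congr 1 <;> ring

private theorem tendsto_reflect : Tendsto reflect atImInfty atImInfty := by
  rw [atImInfty, tendsto_comap_iff]
  refine tendsto_comap.congr fun w => ?_
  show w.im = (-conj (w : ℂ)).im
  simp

private theorem hasDerivAt_conj_reflect {F f : ℍ → ℂ}
    (hF : ∀ τ : ℍ, HasDerivAt (F ∘ ofComplex) (f τ) (τ : ℂ)) (τ : ℍ) :
    HasDerivAt ((fun w => conj (F (reflect w))) ∘ ofComplex) (-conj (f (reflect τ))) (τ : ℂ) := by
  have h0 : HasDerivAt (F ∘ ofComplex) (f (reflect τ)) (-conj (τ : ℂ)) := hF (reflect τ)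
  have h1 : HasDerivAt (fun z : ℂ => (F ∘ ofComplex) (-z)) (-f (reflect τ)) (conj (τ : ℂ)) := by
    simpa [Function.comp_def] using h0.comp (conj (τ : ℂ)) (hasDerivAt_neg (conj (τ : ℂ)))
  have h2 := h1.conj_conj
  rw [Complex.conj_conj, map_neg] at h2
  refine h2.congr_of_eventuallyEq ?_
  filter_upwards [(isOpen_lt continuous_const Complex.continuous_im).mem_nhds τ.im_pos] with z hz
  simp only [Function.comp_apply]
  rw [ofComplex_apply_of_im_pos hz, ofComplex_apply_of_im_pos (by simpa using hz)]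
  rfl

/-- Periods which are symmetric or antisymmetric under conjugation vanish only for `0`. -/
theorem eq_zero_of_charInvolution_eq {f : CuspForm (Gamma0 N) 2} {ε : ℝ} (hε : ε ^ 2 = 1)
    (h : ∀ γ : Gamma0 N, periodMap N f (Additive.ofMul (jConjGamma0 N γ)) =
      ε * periodMap N f (Additive.ofMul γ)) : f = 0 := by
  obtain ⟨F, hF⟩ := exists_hasEquivariantPrimitive f
  let Φ : ℍ → ℂ := fun w => F w - ε * conj (F (reflect w))
  have hd : ∀ τ : ℍ, HasDerivAt (Φ ∘ ofComplex)
      (f τ - ε * -conj (f (reflect τ))) (τ : ℂ) := fun τ =>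
    (hF.1 τ).sub ((hasDerivAt_conj_reflect hF.1 τ).const_mul (ε : ℂ))
  have hε' : (ε : ℂ) * ε = 1 := by exact_mod_cast (sq ε).symm.trans hε
  have hperiod : ∀ (γ : Gamma0 N) (τ : ℍ), Φ ((γ : SL(2, ℤ)) • τ) - Φ τ =
      periodMap N f (Additive.ofMul γ) - conj (periodMap N f (Additive.ofMul γ)) := by
    intro γ τ
    have e := congrArg conj (h γ)
    rw [periodMap_eq_sub f hF.1 _ (reflect τ), map_mul, Complex.conj_ofReal, map_sub,
      jConjGamma0_coe] at e
    simp only [Φ, reflect_smul]
    linear_combination (periodMap_eq_sub f hF.1 γ τ).symm - (ε : ℂ) * e -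
      conj (periodMap N f (Additive.ofMul γ)) * hε'
  have hconst := eq_of_re_invariant (N := N) hd (fun γ hγ τ => ?_) (fun δ w => ?_) fun δ => ?_
  · refine eq_zero_of_im_periodMap_eq_zero fun γ => ?_
    have := hperiod γ.toMul UpperHalfPlane.I
    rw [hconst ((γ.toMul : SL(2, ℤ)) • UpperHalfPlane.I) UpperHalfPlane.I, sub_self] at this
    exact Complex.conj_eq_iff_im.mp (sub_eq_zero.mp this.symm).symm
  · have := congrArg Complex.re (hperiod ⟨γ, hγ⟩ τ)
    simpa [sub_eq_zero] using this
  · have hp : ((δ * ModularGroup.T ^ (N : ℤ) * δ⁻¹ : SL(2, ℤ)) :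
        Matrix (Fin 2) (Fin 2) ℤ).trace ^ 2 = 4 := by
      rw [trace_conj, ModularGroup.coe_T_zpow, Matrix.trace_fin_two]; norm_num
    have e := hperiod ⟨_, ModSym.T_pow_conj_mem (N := N) δ⟩ (δ • w)
    rw [show periodMap N f (Additive.ofMul (⟨_, ModSym.T_pow_conj_mem (N := N) δ⟩ : Gamma0 N)) = 0
      from (periodMap_mem_H f).1 _ hp] at e
    rw [show (δ * ModularGroup.T ^ (N : ℤ) * δ⁻¹) • δ • w = δ • ((N : ℝ) +ᵥ w) by
      rw [mul_smul, mul_smul, inv_smul_smul, modular_T_zpow_smul]; norm_num, map_zero, sub_zero,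
      sub_eq_zero] at e
    exact e
  · obtain ⟨L, hL⟩ := hF.2.2.2 δ
    obtain ⟨L', hL'⟩ := hF.2.2.2 (jConjSL δ)
    refine ⟨L - ε * conj L', hL.sub (Tendsto.const_mul _ ?_)⟩
    simp only [reflect_smul]
    exact (Complex.continuous_conj.tendsto L').comp (hL'.comp tendsto_reflect)

end Conj

/-- The pair period map is injective. -/
theorem periodHomPair_injective : Function.Injective (periodHomPair N) := by
  rw [← LinearMap.ker_eq_bot, LinearMap.ker_eq_bot']
  rintro ⟨f, g⟩ h
  rw [periodHomPair_apply] at h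
  have h1 : ∀ γ : Gamma0 N,
      periodMap N f (Additive.ofMul γ) + periodMap N f (Additive.ofMul (jConjGamma0 N γ)) +
        (periodMap N g (Additive.ofMul γ) - periodMap N g (Additive.ofMul (jConjGamma0 N γ))) = 0 :=
    fun γ => DFunLike.congr_fun h (Additive.ofMul γ)
  have h2 : ∀ γ : Gamma0 N,
      periodMap N f (Additive.ofMul (jConjGamma0 N γ)) + periodMap N f (Additive.ofMul γ) +
        (periodMap N g (Additive.ofMul (jConjGamma0 N γ)) - periodMap N g (Additive.ofMul γ)) = 0 :=
    fun γ => by simpa [jConjGamma0_jConjGamma0] using h1 (jConjGamma0 N γ)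
  refine Prod.ext (eq_zero_of_charInvolution_eq (ε := -1) (by norm_num) fun γ => ?_)
    (eq_zero_of_charInvolution_eq (ε := 1) (by norm_num) fun γ => ?_)
  · push_cast
    linear_combination (h1 γ + h2 γ) / 2
  · push_cast
    linear_combination -(h1 γ - h2 γ) / 2

theorem finiteDimensional_cuspForm_two :
    FiniteDimensional ℂ (CuspForm (Gamma0 N) 2) :=
  Module.Finite.of_injective ((periodLinear N).codRestrict (H N ℂ ℂ) periodMap_mem_H)
    fun _ _ h => periodMap_injective (congrArg Subtype.val h)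

/-- Half of Eichler–Shimura: twice the dimension of the cusp forms is at most the rank. -/
theorem two_mul_finrank_cuspForm_le_rankH :
    2 * Module.finrank ℂ (CuspForm (Gamma0 N) 2) ≤ rankH N := by
  have := finiteDimensional_cuspForm_two (N := N)
  have h := LinearMap.finrank_le_finrank_of_injective
    (f := (periodHomPair N).codRestrict (H N ℂ ℂ) periodHomPair_mem_H)
    (fun _ _ h => periodHomPair_injective (congrArg Subtype.val h))
  rwa [Module.finrank_prod, ← two_mul, finrank_H] at h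

theorem finrank_cuspForm_le_genus :
    (Module.finrank ℂ (CuspForm (Gamma0 N) 2) : ℚ) ≤ genusFormula N := by
  have h := two_mul_finrank_cuspForm_le_rankH (N := N)
  have h' : (2 : ℚ) * Module.finrank ℂ (CuspForm (Gamma0 N) 2) ≤ (rankH N : ℚ) := by exact_mod_cast h
  rw [rankH_eq N] at h'
  linarith

/-- Eichler–Shimura, given the dimension of the space of cusp forms. -/
theorem range_periodHomPair
    (hdim : (Module.finrank ℂ (CuspForm (Gamma0 N) 2) : ℚ) = genusFormula N) :
    LinearMap.range (periodHomPair N) = parabolicHoms ℂ (Gamma0 N) ℂ := by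
  have := finiteDimensional_cuspForm_two (N := N)
  have : FiniteDimensional ℂ (H N ℂ ℂ) := finite_H N ℂ
  rw [← H_eq_parabolicHoms (N := N) (R := ℂ) (A := ℂ)]
  refine Submodule.eq_of_le_of_finrank_eq ?_ ?_
  · rintro _ ⟨p, rfl⟩
    exact periodHomPair_mem_H p
  · rw [LinearMap.finrank_range_of_inj (periodHomPair_injective (N := N)), Module.finrank_prod]
    have h := finrank_H_genus N ℂ
    rw [← hdim] at h
    exact_mod_cast (by rw [h]; push_cast; ring :
      ((Module.finrank ℂ (CuspForm (Gamma0 N) 2) + Module.finrank ℂ (CuspForm (Gamma0 N) 2) : ℕ) : ℚ)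
        = (Module.finrank ℂ (H N ℂ ℂ) : ℚ))

end FLTAgent.Period
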