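import Fermat.Agent.ModSym.Period
import Fermat.Agent.Period.SL2
import Fermat.Prelude.Def_ModularCurve_PeriodMapBundled

/-!
# Primitives of weight two cusp forms

Existence of an equivariant primitive `F` of a cusp form on `Γ₀(N)`
(`exists_primitive_hasEquivariantPrimitive`), limits of `F ∘ δ` at `i∞`
(`exists_limit_of_hasDerivAt`) and the vanishing of the translation constant of `F` along a
parabolic element (`sub_eq_zero_of_parabolic`).
-/

set_option autoImplicit false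

open CongruenceSubgroup UpperHalfPlane Filter Topology Matrix.SpecialLinearGroup
open scoped MatrixGroups ModularForm

noncomputable section

namespace FLTAgent.Period

/-- A function on `ℍ` with vanishing derivative is constant. -/
theorem eq_of_hasDerivAt_zero {F : ℍ → ℂ} (h : ∀ τ : ℍ, HasDerivAt (F ∘ ofComplex) 0 (τ : ℂ))
    (a b : ℍ) : F a = F b := by
  have hs : IsOpen {z : ℂ | 0 < z.im} := isOpen_lt continuous_const Complex.continuous_im
  obtain ⟨c, hc⟩ := hs.exists_is_const_of_deriv_eq_zero (f := F ∘ ofComplex)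
    (convex_halfSpace_im_gt 0).isPreconnected
    (fun z hz => (h ⟨z, hz⟩).differentiableAt.differentiableWithinAt)
    (fun z hz => (h ⟨z, hz⟩).deriv)
  have ha := hc _ a.im_pos
  have hb := hc _ b.im_pos
  simp only [Function.comp_apply, ofComplex_apply] at ha hb
  rw [ha, hb]

theorem exists_eq_add_of_hasDerivAt {F G f : ℍ → ℂ}
    (hF : ∀ τ : ℍ, HasDerivAt (F ∘ ofComplex) (f τ) (τ : ℂ))
    (hG : ∀ τ : ℍ, HasDerivAt (G ∘ ofComplex) (f τ) (τ : ℂ)) :
    ∃ c : ℂ, ∀ τ, F τ = G τ + c := by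
  refine ⟨F UpperHalfPlane.I - G UpperHalfPlane.I, fun τ => ?_⟩
  have := eq_of_hasDerivAt_zero (F := F - G)
    (fun τ => by simpa [sub_self] using! (hF τ).sub (hG τ)) τ UpperHalfPlane.I
  simp only [Pi.sub_apply] at this
  linear_combination this

/-- Chain rule with a Möbius transformation. -/
theorem hasDerivAt_comp_SL {F f : ℍ → ℂ}
    (hF : ∀ τ : ℍ, HasDerivAt (F ∘ ofComplex) (f τ) (τ : ℂ)) (g : SL(2, ℤ)) (τ : ℍ) :
    HasDerivAt ((fun w => F (g • w)) ∘ ofComplex) ((f ∣[(2 : ℤ)] g) τ) (τ : ℂ) := by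
  have hdet : (mapGL ℝ g : GL (Fin 2) ℝ).val.det = 1 := by
    have := g.det_coe
    rw [Matrix.det_fin_two] at this
    simp only [mapGL_coe_matrix, Matrix.det_fin_two, map_apply_coe, RingHom.mapMatrix_apply, Matrix.map_apply]
    simp only [← map_mul, ← map_sub]
    rw [this, map_one]
  have h1 := (hasStrictDerivAt_smul (g := mapGL ℝ g) (by rw [hdet]; exact one_pos) τ).hasDerivAt
  have h2 := (hF (g • τ)).comp_of_eq (τ : ℂ) h1 (by rw [ofComplex_apply]; rfl)
  have e : ((fun w => F (g • w)) ∘ ofComplex) =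
      (F ∘ ofComplex) ∘ fun z => ((mapGL ℝ g • ofComplex z : ℍ) : ℂ) := by
    funext z
    simp only [Function.comp_apply, ofComplex_apply]
    rfl
  rw [e]
  refine h2.congr_deriv ?_
  rw [ModularForm.SL_slash_apply, hdet, _root_.zpow_neg]
  simp [div_eq_mul_inv]
  left; rfl

theorem tendsto_T_zpow_smul (n : ℤ) :
    Tendsto (fun w : ℍ => ModularGroup.T ^ n • w) atImInfty atImInfty := by
  rw [atImInfty, tendsto_comap_iff]
  refine tendsto_comap.congr fun w => ?_
  rw [Function.comp_apply, modular_T_zpow_smul, vadd_im]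

/-- If `F (γ • z) - F z` is constant and `F ∘ δ` has a limit at `i∞`, then it vanishes for a
parabolic `γ` fixing the cusp `δ ∞`. -/
theorem sub_eq_zero_of_parabolic {F : ℍ → ℂ} {γ : SL(2, ℤ)} {c : ℂ}
    (hc : ∀ z, F (γ • z) - F z = c) {δ : SL(2, ℤ)} {n : ℤ}
    (hγ : γ = δ * ModularGroup.T ^ n * δ⁻¹ ∨ γ = -(δ * ModularGroup.T ^ n * δ⁻¹))
    (hlim : ∃ L : ℂ, Tendsto (fun w : ℍ => F (δ • w)) atImInfty (𝓝 L)) : c = 0 := by
  obtain ⟨L, hL⟩ := hlim
  have key : ∀ w : ℍ, F (δ • ModularGroup.T ^ n • w) - F (δ • w) = c := by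
    intro w
    have := hc (δ • w)
    rcases hγ with e | e <;>
      simpa only [e, ModularGroup.SL_neg_smul, mul_smul, inv_smul_smul] using this
  have := (hL.comp (tendsto_T_zpow_smul n)).sub hL
  rw [sub_self] at this
  exact tendsto_nhds_unique (tendsto_const_nhds.congr fun w => (key w).symm) this

variable {N : ℕ} [NeZero N] (f : CuspForm (Gamma0 N) 2)

theorem exists_prim_slash (δ : SL(2, ℤ)) :
    ∃ K : ℍ → ℂ, (∀ τ : ℍ, HasDerivAt (K ∘ ofComplex) (((⇑f : ℍ → ℂ) ∣[(2 : ℤ)] δ) τ) (τ : ℂ)) ∧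
      Tendsto K atImInfty (𝓝 0) := by
  obtain ⟨K, hKd, hK⟩ := (ModSym.isDecay_slash f δ).exists_prim
  refine ⟨fun τ => K τ, fun τ => ?_, hKd.zeroAtImInfty⟩
  have h := hK (τ : ℂ) τ.im_pos
  rw [ofComplex_apply] at h
  refine h.congr_of_eventuallyEq ?_
  filter_upwards [(isOpen_lt continuous_const Complex.continuous_im).mem_nhds τ.im_pos] with z hz
  simp [ofComplex_apply_of_im_pos hz]

variable {f}

theorem exists_limit_of_hasDerivAt {F : ℍ → ℂ}
    (hF : ∀ τ : ℍ, HasDerivAt (F ∘ ofComplex) (f τ) (τ : ℂ)) (δ : SL(2, ℤ)) :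
    ∃ L : ℂ, Tendsto (fun w : ℍ => F (δ • w)) atImInfty (𝓝 L) := by
  obtain ⟨K, hK, hK0⟩ := exists_prim_slash f δ
  obtain ⟨c, hc⟩ := exists_eq_add_of_hasDerivAt (F := fun w => F (δ • w)) (G := K)
    (hasDerivAt_comp_SL hF δ) hK
  exact ⟨0 + c, (hK0.add_const c).congr fun w => (hc w).symm⟩

theorem isEquivariantPrimitive_of_hasDerivAt {F : ℍ → ℂ}
    (hF : ∀ τ : ℍ, HasDerivAt (F ∘ ofComplex) (f τ) (τ : ℂ)) :
    ModularCurve.Period.IsEquivariantPrimitive (Gamma0 N) F := by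
  intro γ
  have h : ∀ τ : ℍ, HasDerivAt ((fun w => F ((γ : SL(2, ℤ)) • w)) ∘ ofComplex) (f τ) (τ : ℂ) := by
    intro τ
    have := hasDerivAt_comp_SL hF (γ : SL(2, ℤ)) τ
    rwa [ModSym.cuspForm_slash_eq f _ γ.2] at this
  obtain ⟨c, hc⟩ := exists_eq_add_of_hasDerivAt h hF
  exact ⟨c, fun z => by rw [hc z]; ring⟩

/-- Every weight two cusp form has an equivariant primitive with limits at the cusps. -/
theorem exists_primitive_hasEquivariantPrimitive :
    ∃ F : ℍ → ℂ, ModularCurve.HasEquivariantPrimitive N f F := by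
  obtain ⟨K, hK, hK0⟩ := exists_prim_slash f 1
  rw [SlashAction.slash_one] at hK
  exact ⟨K, hK, hK0, isEquivariantPrimitive_of_hasDerivAt hK, exists_limit_of_hasDerivAt hK⟩

end FLTAgent.Period
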